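import Fermat.Agent.S17.Defs

/-!
# S17 / GLOB: the interfaces of the abstract height machine

* `GlobalField K` : a family of absolute values on `K` (`= ℚ̄`) with the product formula and Northcott
  on a subfield `k0` (`= L`, a number field).   SUPPLIED BY BLOCK GF.
* `Frame.IsRat`, `Frame.Smooth`, `RatSet`, `ClassData` : what the height machine needs to know about
  the curve.   SUPPLIED BY BLOCK BR.
* `HeightStmt G` : the output (input of Mathlib's `AddCommGroup.fg_of_descent'`).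
-/

set_option autoImplicit false

noncomputable section

namespace Fermat.Agent.S17

open scoped Classical

/-- A family of absolute values on `K` with product formula and Northcott on the subfield `k0`. -/
structure GlobalField (K : Type*) [Field K] where
  ι : Type
  abv : ι → AbsoluteValue K ℝ
  arch_finite : {w | ¬ IsNonarchimedean (abv w)}.Finite
  supp_finite : ∀ a : K, a ≠ 0 → {w | abv w a ≠ 1}.Finite
  k0 : Subfield K
  prod_formula : ∀ a ∈ k0, a ≠ 0 → ∑ᶠ w, Real.log (abv w a) = 0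
  northcott : ∀ (n : ℕ) (B : ℝ), {x : Fin (n + 1) → K | (∀ i, x i ∈ k0) ∧ (∃ i, x i = 1) ∧
    ∑ᶠ w, Real.log (Finset.univ.sup' Finset.univ_nonempty fun i => abv w (x i)) ≤ B}.Finite

variable {K R : Type*} [Field K] [CommRing R] [Algebra K R]

/-- the structure constants lie in `k0`. -/
def Frame.IsRat (F : Frame K R) (k0 : Subfield K) : Prop :=
  ∀ i j l, F.e.repr (F.e i * F.e j) l ∈ k0

/-- `f` has coefficients in `k0`. -/
def Frame.RatFn (F : Frame K R) (k0 : Subfield K) (f : R) : Prop := ∀ i, F.e.repr f i ∈ k0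

/-- the cotangent spaces at the `K`-points have dimension `≤ 1`. -/
def Frame.Smooth (_F : Frame K R) : Prop :=
  ∀ P : R →ₐ[K] K, ∀ a b : R, P a = 0 → P b = 0 →
    ∃ α β : K, (α ≠ 0 ∨ β ≠ 0) ∧ α • a + β • b ∈ (RingHom.ker (P : R →+* K)) ^ 2

/-- A finite set of points is `k0`-rational: for every `k0`-rational function `f` the polynomial
`∏_{P ∈ D} (X - f(P))` has coefficients in `k0`.  (True for Galois stable sets.) -/
def RatSet (F : Frame K R) (k0 : Subfield K) (D : Finset (R →ₐ[K] K)) : Prop :=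
  ∀ f, F.RatFn k0 f → ∀ m, (∏ P ∈ D, (Polynomial.X - Polynomial.C (P f))).coeff m ∈ k0

/-- an enumeration of a finite set. -/
def enum {α : Type*} (D : Finset α) : Fin D.card → α := fun a => (D.equivFin.symm a : α)

/-- `D` is the set of zeros of `f`, and all zeros are simple (`#D = deg f`). -/
def IsZeros (F : Frame K R) (f : R) (D : Finset (R →ₐ[K] K)) : Prop :=
  (∀ P : R →ₐ[K] K, P f = 0 ↔ P ∈ D) ∧ D.card = F.deg f

/-- What the height machine needs to know about divisor classes.  `J = Pic⁰`, `G = J(L)`,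
`cl D = [∑_{P ∈ D} P - #D ∞]`. -/
structure ClassData (F : Frame K R) (k0 : Subfield K) (J : Type*) [AddCommGroup J] where
  G : AddSubgroup J
  cl : Finset (R →ₐ[K] K) → J
  cl_union : ∀ D E, Disjoint D E → cl (D ∪ E) = cl D + cl E
  /-- the rational (`= G_L`-stable) finite sets of points -/
  Rat : Finset (R →ₐ[K] K) → Prop
  rat_ratSet : ∀ D, Rat D → RatSet F k0 D
  rat_union : ∀ D E, Rat D → Rat E → Rat (D ∪ E)
  /-- a rational set of class `0` is the zero set of a rational function with simple zeros -/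
  principal : ∀ D, Rat D → cl D = 0 → ∃ f, F.RatFn k0 f ∧ IsZeros F f D
  cl_zeros : ∀ f D, IsZeros F f D → cl D = 0
  /-- `h` vanishes on the (simple) zeros of `f` ⟹ `f ∣ h` -/
  dvd_of_zeros : ∀ f D, IsZeros F f D → ∀ h, (∀ P ∈ D, P h = 0) → f ∣ h
  d0 : ℕ
  /-- moving lemma: rational reduced representatives of every degree `≥ d0` avoiding a finite set -/
  moving : ∀ x ∈ G, ∀ d, d0 ≤ d → ∀ T : Finset (R →ₐ[K] K),
    ∃ D, Rat D ∧ D.card = d ∧ cl D = x ∧ Disjoint D T
  /-- `Good y ↔ ℓ(y + g∞) = 1 = ℓ(-y + g∞)` -/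
  Good : J → Prop
  good_neg : ∀ y, Good y → Good (-y)
  /-- `ℓ((d+g)∞ - D) = 1`: the `d` points of `D` impose independent conditions on `L((d+g)∞)` -/
  good_wdg : ∀ y D, Good y → cl D = y → 3 * F.g ≤ D.card →
    ∃ I ∈ F.idxFam (D.card + F.g) D.card, (F.mat (fun a => ⇑(enum D a)) I).det ≠ 0
  translate : ∃ 𝒯 : Finset J, (∀ t ∈ 𝒯, t ∈ G) ∧ ∀ y ∈ G, ∃ t ∈ 𝒯, Good (y + t) ∧ Good (y - t)
  /-- `div₀ φ = D + D'`, `div₀ ψ = E + E'`, `D' + E' = div₀ Fy`, `cl D' = - y`: finitely many `y`. -/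
  fiber_finite : ∀ Fy : R, Fy ≠ 0 → {y : J | ∃ (D E : Finset (R →ₐ[K] K)) (f φ ψ : R),
    cl D = y ∧ Disjoint D E ∧ IsZeros F f (D ∪ E) ∧ φ ≠ 0 ∧ ψ ≠ 0 ∧ (∀ P ∈ D, P φ = 0) ∧
      (∀ P ∈ E, P ψ = 0) ∧ φ * ψ = f * Fy}.Finite

/-- The output of the height machine. -/
def HeightStmt (G : Type*) [AddCommGroup G] : Prop :=
  ∃ h : G → ℝ, (∀ x, 0 ≤ h x) ∧ (∃ c : ℝ, ∀ x y, |h (x + y) + h (x - y) - 2 * (h x + h y)| ≤ c) ∧
    ∀ B : ℝ, {x | h x ≤ B}.Finite

end Fermat.Agent.S17
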