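import Fermat.Agent.S17.Glob.Pos
import Fermat.Agent.S17.Val.VV
import Fermat.Agent.S17.Contracts

/-!
# S17 / GLOB: the contract `StmtGLOB`
-/

set_option autoImplicit false

namespace Fermat.Agent.S17

theorem stmtGLOB : StmtGLOB := by
  intro R _ _ F 𝔤 J _ C hS hF
  exact heightStmt F 𝔤 C (stmtVV F hS) hF

end Fermat.Agent.S17
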