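import Fermat.Agent.S17.Glob.Sum

/-!
# S17 / GLOB leaf `Adm`: multiplicative calculus on top of `Glob/Sum.lean`

`𝔤 : GlobalField K`.  A family `φ : 𝔤.ι → ℝ` is *admissible* (`𝔤.Adm φ`) if it is positive and `= 1` for almost
all `w`;  `𝔤.gl φ = ∑ᶠ w, log (φ w)`.  On admissible families `gl` is additive (`gl_mul`, `gl_prod`, `gl_pow`,
`gl_div`), monotone, and `UBound A B` gives `gl (A · x) ≤ gl (B · x) + C` with `C` independent of `x`.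

All proofs: `finsum` calculus with finite supports (`finsum_add_distrib`, `finsum_le_finsum'`,
`Real.log_mul`, …) and the lemmas of `Glob/Sum.lean` (`hfs_of_finite`, `finite_sup'_ne_one`, `sup'_abv_pos`,
`UBound.exists_global`).  The support of `w ↦ log (φ w)` is contained in `{w | φ w ≠ 1}`.
-/

set_option autoImplicit false

noncomputable section

namespace Fermat.Agent.S17

open scoped Classical

variable {K : Type*} [Field K]

namespace GlobalField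

variable (𝔤 : GlobalField K)

/-- admissible local family: positive, `= 1` almost everywhere. -/
def Adm (φ : 𝔤.ι → ℝ) : Prop := (∀ w, 0 < φ w) ∧ {w | φ w ≠ 1}.Finite

/-- the global sum of the logarithms. -/
def gl (φ : 𝔤.ι → ℝ) : ℝ := ∑ᶠ w, Real.log (φ w)

variable {𝔤}

theorem Adm.hfs {φ : 𝔤.ι → ℝ} (h : 𝔤.Adm φ) :
    Function.HasFiniteSupport fun w => Real.log (φ w) := by
  refine 𝔤.hfs_of_finite h.2 fun w hw => ?_
  have : φ w = 1 := by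
    by_contra h'
    exact hw h'
  rw [this, Real.log_one]

theorem adm_one : 𝔤.Adm fun _ => 1 := by
  refine ⟨fun _ => one_pos, ?_⟩
  simp

theorem gl_one : 𝔤.gl (fun _ => 1) = 0 := by
  simp [gl]

theorem Adm.mul {φ ψ : 𝔤.ι → ℝ} (h : 𝔤.Adm φ) (h' : 𝔤.Adm ψ) : 𝔤.Adm fun w => φ w * ψ w := by
  refine ⟨fun w => mul_pos (h.1 w) (h'.1 w), (h.2.union h'.2).subset fun w hw => ?_⟩
  by_contra hn
  rw [Set.mem_union, not_or] at hn
  have h1 : φ w = 1 := by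
    by_contra h0
    exact hn.1 h0
  have h2 : ψ w = 1 := by
    by_contra h0
    exact hn.2 h0
  exact hw (by show φ w * ψ w = 1; rw [h1, h2, one_mul])

theorem Adm.div {φ ψ : 𝔤.ι → ℝ} (h : 𝔤.Adm φ) (h' : 𝔤.Adm ψ) : 𝔤.Adm fun w => φ w / ψ w := by
  refine ⟨fun w => div_pos (h.1 w) (h'.1 w), (h.2.union h'.2).subset fun w hw => ?_⟩
  by_contra hn
  rw [Set.mem_union, not_or] at hn
  have h1 : φ w = 1 := by
    by_contra h0
    exact hn.1 h0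
  have h2 : ψ w = 1 := by
    by_contra h0
    exact hn.2 h0
  exact hw (by show φ w / ψ w = 1; rw [h1, h2, div_one])

theorem Adm.pow {φ : 𝔤.ι → ℝ} (h : 𝔤.Adm φ) (n : ℕ) : 𝔤.Adm fun w => φ w ^ n := by
  refine ⟨fun w => pow_pos (h.1 w) n, h.2.subset fun w hw => ?_⟩
  intro h1
  exact hw (by show φ w ^ n = 1; rw [h1, one_pow])

theorem Adm.prod {α : Type*} (s : Finset α) {φ : α → 𝔤.ι → ℝ} (h : ∀ a ∈ s, 𝔤.Adm (φ a)) :
    𝔤.Adm fun w => ∏ a ∈ s, φ a w := by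
  refine ⟨fun w => Finset.prod_pos fun a ha => (h a ha).1 w,
    (s.finite_toSet.biUnion fun a ha => (h a ha).2).subset fun w hw => ?_⟩
  by_contra hn
  apply hw
  apply Finset.prod_eq_one
  intro a ha
  by_contra h0
  exact hn (Set.mem_biUnion (Finset.mem_coe.2 ha) h0)

theorem gl_mul {φ ψ : 𝔤.ι → ℝ} (h : 𝔤.Adm φ) (h' : 𝔤.Adm ψ) :
    𝔤.gl (fun w => φ w * ψ w) = 𝔤.gl φ + 𝔤.gl ψ := by
  unfold gl
  rw [← finsum_add_distrib h.hfs h'.hfs]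
  exact finsum_congr fun w => Real.log_mul (h.1 w).ne' (h'.1 w).ne'

theorem gl_div {φ ψ : 𝔤.ι → ℝ} (h : 𝔤.Adm φ) (h' : 𝔤.Adm ψ) :
    𝔤.gl (fun w => φ w / ψ w) = 𝔤.gl φ - 𝔤.gl ψ := by
  unfold gl
  rw [← finsum_sub_distrib h.hfs h'.hfs]
  exact finsum_congr fun w => Real.log_div (h.1 w).ne' (h'.1 w).ne'

theorem gl_pow {φ : 𝔤.ι → ℝ} (h : 𝔤.Adm φ) (n : ℕ) :
    𝔤.gl (fun w => φ w ^ n) = n * 𝔤.gl φ := by
  unfold gl
  rw [mul_finsum' _ _ h.hfs]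
  exact finsum_congr fun w => Real.log_pow (φ w) n

theorem gl_prod {α : Type*} (s : Finset α) {φ : α → 𝔤.ι → ℝ} (h : ∀ a ∈ s, 𝔤.Adm (φ a)) :
    𝔤.gl (fun w => ∏ a ∈ s, φ a w) = ∑ a ∈ s, 𝔤.gl (φ a) := by
  unfold gl
  rw [← finsum_sum_comm s (fun w a => Real.log (φ a w)) fun a ha => (h a ha).hfs]
  exact finsum_congr fun w => Real.log_prod fun a ha => ((h a ha).1 w).ne'

theorem gl_mono {φ ψ : 𝔤.ι → ℝ} (h : 𝔤.Adm φ) (h' : 𝔤.Adm ψ) (hle : ∀ w, φ w ≤ ψ w) :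
    𝔤.gl φ ≤ 𝔤.gl ψ :=
  finsum_le_finsum' h.hfs h'.hfs fun w => Real.log_le_log (h.1 w) (hle w)

theorem gl_nonneg {φ : 𝔤.ι → ℝ} (h1 : ∀ w, 1 ≤ φ w) : 0 ≤ 𝔤.gl φ :=
  finsum_nonneg fun w => Real.log_nonneg (h1 w)

theorem gl_congr {φ ψ : 𝔤.ι → ℝ} (h : ∀ w, φ w = ψ w) : 𝔤.gl φ = 𝔤.gl ψ := by
  rw [show φ = ψ from funext h]

/-- `w ↦ |a|_w` is admissible for `a ≠ 0`. -/
theorem adm_abv {a : K} (ha : a ≠ 0) : 𝔤.Adm fun w => 𝔤.abv w a :=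
  ⟨fun w => (𝔤.abv w).pos ha, 𝔤.supp_finite a ha⟩

/-- product formula. -/
theorem gl_abv_of_mem {a : K} (ha : a ≠ 0) (hk : a ∈ 𝔤.k0) : 𝔤.gl (fun w => 𝔤.abv w a) = 0 :=
  𝔤.prod_formula a hk ha

/-- product formula for square roots of elements of `k0`. -/
theorem gl_abv_of_sq_mem {a : K} (ha : a ≠ 0) (hk : a ^ 2 ∈ 𝔤.k0) :
    𝔤.gl (fun w => 𝔤.abv w a) = 0 := by
  have h1 := gl_pow (adm_abv (𝔤 := 𝔤) ha) 2
  have h2 : 𝔤.gl (fun w => 𝔤.abv w a ^ 2) = 0 := by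
    rw [← gl_abv_of_mem (pow_ne_zero 2 ha) hk]
    exact gl_congr fun _ => (map_pow _ _ _).symm
  rw [h2] at h1
  have h3 : ((2 : ℕ) : ℝ) ≠ 0 := by norm_num
  exact (mul_eq_zero.1 h1.symm).resolve_left h3

/-- a sup of `|a i|_w` is admissible as soon as one `a i` is nonzero. -/
theorem adm_sup' {α : Type*} (s : Finset α) (hs : s.Nonempty) (a : α → K)
    (h : ∃ i ∈ s, a i ≠ 0) : 𝔤.Adm fun w => s.sup' hs fun i => 𝔤.abv w (a i) :=
  ⟨fun w => sup'_abv_pos s hs a _ h, 𝔤.finite_sup'_ne_one s hs a h⟩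

end GlobalField

/-- **G1.** A uniform local bound gives a global inequality with a constant independent of `x`. -/
theorem UBound.glob (𝔤 : GlobalField K) {α : Type*} {A B : AbsoluteValue K ℝ → α → ℝ}
    (h : UBound A B) :
    ∃ C : ℝ, 0 ≤ C ∧ ∀ x, 𝔤.Adm (fun w => A (𝔤.abv w) x) → 𝔤.Adm (fun w => B (𝔤.abv w) x) →
      𝔤.gl (fun w => A (𝔤.abv w) x) ≤ 𝔤.gl (fun w => B (𝔤.abv w) x) + C := by
  obtain ⟨C, hC0, hC⟩ := h.exists_global 𝔤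
  refine ⟨C, hC0, fun x hA hB => ?_⟩
  have := hC x hA.1 hA.hfs hB.hfs
  unfold GlobalField.gl
  linarith

section Frame

variable {R : Type*} [CommRing R] [Algebra K R] (F : Frame K R) (𝔤 : GlobalField K)

theorem adm_nrm (n : ℕ) (P : R →ₐ[K] K) : 𝔤.Adm fun w => F.nrm (𝔤.abv w) n P :=
  GlobalField.adm_sup' (F.idx n) (F.idx_nonempty n) (fun i => P (F.e i))
    ⟨0, F.mem_idx.mpr (by rw [F.wt_zero]; exact Nat.zero_le _), by
      rw [F.e_zero, map_one]; exact one_ne_zero⟩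

theorem adm_wdg (n : ℕ) {d : ℕ} (P : Fin d → R → K)
    (h : ∃ I ∈ F.idxFam n d, (F.mat P I).det ≠ 0) : 𝔤.Adm fun w => F.wdg (𝔤.abv w) n P :=
  GlobalField.adm_sup' (F.idxFam n d) (F.idxFam_nonempty n d) (fun J => (F.mat P J).det) h

theorem adm_cnrm {f : R} (hf : f ≠ 0) : 𝔤.Adm fun w => F.cnrm (𝔤.abv w) f :=
  GlobalField.adm_sup' (F.idx (F.deg f)) (F.idx_nonempty _) (fun i => F.e.repr f i)
    (F.exists_repr_ne_zero hf)

theorem adm_bwdg (N r : ℕ) (f : R) (h : ∃ I ∈ F.idxFam N r, (bmat F f I).det ≠ 0) :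
    𝔤.Adm fun w => bwdg F (𝔤.abv w) N r f :=
  GlobalField.adm_sup' (F.idxFam N r) (F.idxFam_nonempty N r) (fun J => (bmat F f J).det) h

end Frame

end Fermat.Agent.S17
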