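import Fermat.Agent.S17.Glob.Ht

/-!
# S17 / GLOB leaves `Rat`: rationality lemmas (pure algebra)
-/

set_option autoImplicit false

noncomputable section

namespace Fermat.Agent.S17

open scoped Classical

variable {K R : Type*} [Field K] [CommRing R] [Algebra K R] (F : Frame K R) {k0 : Subfield K}

theorem ratFn_zero : F.RatFn k0 0 := by
  intro i
  rw [map_zero, Finsupp.zero_apply]
  exact k0.zero_mem

theorem ratFn_e (i : ℕ) : F.RatFn k0 (F.e i) := by
  intro j
  rw [Module.Basis.repr_self, Finsupp.single_apply]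
  split_ifs
  · exact k0.one_mem
  · exact k0.zero_mem

theorem ratFn_one : F.RatFn k0 1 := by
  rw [← F.e_zero]
  exact ratFn_e F 0

variable {F}

theorem Frame.RatFn.add {f h : R} (hf : F.RatFn k0 f) (hh : F.RatFn k0 h) : F.RatFn k0 (f + h) := by
  intro i
  rw [map_add, Finsupp.add_apply]
  exact k0.add_mem (hf i) (hh i)

theorem Frame.RatFn.smul {f : R} (hf : F.RatFn k0 f) {c : K} (hc : c ∈ k0) :
    F.RatFn k0 (c • f) := by
  intro i
  rw [map_smul, Finsupp.smul_apply, smul_eq_mul]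
  exact k0.mul_mem hc (hf i)

/-- (`f = ∑ f_i e_i`, `h = ∑ h_j e_j`, structure constants in `k0`; cf. `Frame.Mult_repr_mul`.) -/
theorem Frame.RatFn.mul (hF : F.IsRat k0) {f h : R} (hf : F.RatFn k0 f) (hh : F.RatFn k0 h) :
    F.RatFn k0 (f * h) := by
  intro l
  have e1 : F.e.repr (f * h) l = ∑ p ∈ F.idx (F.deg f) ×ˢ F.idx (F.deg h),
      F.e.repr (F.e p.1 * F.e p.2) l * (F.e.repr f p.1 * F.e.repr h p.2) := by
    conv_lhs => rw [F.eq_sum_idx (F.mem_le_iff_deg.2 (le_refl (F.deg f))),
      F.eq_sum_idx (F.mem_le_iff_deg.2 (le_refl (F.deg h)))]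
    rw [Finset.sum_mul_sum, ← Finset.sum_product', map_sum, Finsupp.finsetSum_apply]
    refine Finset.sum_congr rfl fun p _ => ?_
    rw [smul_mul_smul_comm, map_smul, Finsupp.smul_apply, smul_eq_mul, mul_comm]
  rw [e1]
  exact k0.sum_mem fun p _ => k0.mul_mem (hF p.1 p.2 l) (k0.mul_mem (hf p.1) (hh p.2))

/-- Division stays rational.  Induction on `deg h` (strong induction): let `i, j` be the top indices of `f, h`,
`l` with `wt l = wt i + wt j`; the coefficient `l` of `f h` is `f_i h_j c_{ij}^l` (`Frame.mul_le`, `Frame.mul_lead`,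
cf. `Frame.FrameBasic_exists_lead`), so `h_j ∈ k0`; replace `h` by `h - h_j e_j`. -/
theorem Frame.RatFn.of_mul (hF : F.IsRat k0) {f h : R} (hf : F.RatFn k0 f) (hf0 : f ≠ 0)
    (hfh : F.RatFn k0 (f * h)) : F.RatFn k0 h := by
  obtain ⟨i, -, hai, hitop⟩ := F.exists_top hf0
  have key : ∀ (N : ℕ) (h : R), (∀ j, N ≤ j → F.e.repr h j = 0) → F.RatFn k0 (f * h) →
      F.RatFn k0 h := by
    intro N
    induction N with
    | zero =>
      intro h hz _ j
      rw [hz j (Nat.zero_le j)]
      exact k0.zero_mem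
    | succ N ih =>
      intro h hz hfh
      obtain ⟨l, hl⟩ := F.wt_add i N
      have hNtop : ∀ j, N < j → F.e.repr h j = 0 := fun j hj => hz j hj
      have hhle : h ∈ F.le (F.wt N) := by
        rw [F.mem_le_iff]
        intro j hj
        exact hNtop j (F.wt_strictMono.lt_iff_lt.1 hj)
      have hdec : f * h = (F.e.repr f i * F.e.repr h N) • (F.e i * F.e N)
          + F.e.repr f i • ((h - F.e.repr h N • F.e N) * F.e i)
          + (f - F.e.repr f i • F.e i) * h := by
        simp only [Algebra.smul_def, map_mul]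
        ring
      have h1 : F.e.repr ((h - F.e.repr h N • F.e N) * F.e i) l = 0 :=
        F.FrameBasic_low_mul (F.FrameBasic_low_sub hNtop) (F.e_mem_le le_rfl) (by omega)
      have h2 : F.e.repr ((f - F.e.repr f i • F.e i) * h) l = 0 :=
        F.FrameBasic_low_mul (F.FrameBasic_low_sub hitop) hhle (by omega)
      have hcoef : F.e.repr (f * h) l
          = F.e.repr f i * F.e.repr h N * F.e.repr (F.e i * F.e N) l := by
        conv_lhs => rw [hdec]
        rw [map_add, map_add, map_smul, map_smul, Finsupp.add_apply, Finsupp.add_apply,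
          Finsupp.smul_apply, Finsupp.smul_apply, h1, h2, smul_zero, add_zero, add_zero,
          smul_eq_mul]
      have hc0 : F.e.repr (F.e i * F.e N) l ≠ 0 := F.mul_lead i N l hl
      have hb : F.e.repr h N ∈ k0 := by
        have e1 : F.e.repr h N = F.e.repr (f * h) l *
            (F.e.repr f i * F.e.repr (F.e i * F.e N) l)⁻¹ := by
          rw [hcoef]
          field_simp
        rw [e1]
        exact k0.mul_mem (hfh l) (k0.inv_mem (k0.mul_mem (hf i) (hF i N l)))
      have hsub : F.RatFn k0 (h - F.e.repr h N • F.e N) := by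
        apply ih _ (F.FrameBasic_low_sub hNtop)
        have e2 : f * (h - F.e.repr h N • F.e N)
            = f * h + (-(F.e.repr h N)) • (f * F.e N) := by
          simp only [Algebra.smul_def, map_neg]
          ring
        rw [e2]
        exact hfh.add ((hf.mul hF (ratFn_e F N)).smul (k0.neg_mem hb))
      have e3 : h = (h - F.e.repr h N • F.e N) + F.e.repr h N • F.e N := by ring
      rw [e3]
      exact hsub.add ((ratFn_e F N).smul hb)
  by_cases hh0 : h = 0
  · rw [hh0]; exact ratFn_zero F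
  · obtain ⟨j, -, -, hjtop⟩ := F.exists_top hh0
    exact key (j + 1) h (fun m hm => hjtop m hm) hfh

/-- `∏_{P ∈ D} f(P) = ±` the constant coefficient of `∏ (X - f(P))`. -/
theorem RatSet.prod_mem {D : Finset (R →ₐ[K] K)} (hD : RatSet F k0 D) {f : R}
    (hf : F.RatFn k0 f) : ∏ P ∈ D, P f ∈ k0 := by
  have h := hD f hf 0
  rw [Polynomial.coeff_zero_eq_eval_zero, Polynomial.eval_prod] at h
  simp only [Polynomial.eval_sub, Polynomial.eval_X, Polynomial.eval_C, zero_sub] at h
  rw [Finset.prod_neg] at h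
  have h2 : ∏ P ∈ D, P f = (-1) ^ D.card * ((-1) ^ D.card * ∏ P ∈ D, P f) := by
    rw [← mul_assoc, ← mul_pow]
    simp
  rw [h2]
  exact mul_mem (pow_mem (neg_mem (one_mem _)) _) h

/-- `∑_{P ∈ D} f(P) = -` the coefficient of `X^(#D-1)` of `∏ (X - f(P))`
(`Polynomial.prod_X_sub_C_nextCoeff` / `Multiset.prod_X_sub_C_coeff_card_pred`). -/
theorem RatSet.sum_mem {D : Finset (R →ₐ[K] K)} (hD : RatSet F k0 D) {f : R}
    (hf : F.RatFn k0 f) : ∑ P ∈ D, P f ∈ k0 := by
  have h1 := Polynomial.prod_X_sub_C_nextCoeff (s := D) (fun P : R →ₐ[K] K => P f)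
  have h2 : (∏ P ∈ D, (Polynomial.X - Polynomial.C (P f))).nextCoeff ∈ k0 := by
    unfold Polynomial.nextCoeff
    split_ifs
    · exact zero_mem _
    · exact hD f hf _
  rw [h1] at h2
  exact (neg_mem_iff (x := ∑ P ∈ D, P f)).1 h2

/-- a determinant with entries in `k0` lies in `k0`. -/
theorem Rat_det_mem {n : Type*} [Fintype n] [DecidableEq n] (M : Matrix n n K)
    (h : ∀ i j, M i j ∈ k0) : M.det ∈ k0 := by
  have h1 : M = (k0.subtype).mapMatrix (Matrix.of fun i j => (⟨M i j, h i j⟩ : k0)) := by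
    ext i j
    rfl
  rw [h1, ← RingHom.map_det]
  exact Subtype.property _

theorem Rat_sum_enum {α M : Type*} [AddCommMonoid M] (D : Finset α) (φ : α → M) :
    ∑ a, φ (enum D a) = ∑ P ∈ D, φ P := by
  rw [← Finset.sum_coe_sort D φ, ← Equiv.sum_comp D.equivFin.symm (fun x : D => φ x)]
  rfl

/-- `det M_I det M_I' = det (M_Iᵀ M_I')`, with entries `∑_{P ∈ D} (e_{I b} e_{I' b'})(P) ∈ k0`. -/
theorem RatSet.det_mul_det_mem (hF : F.IsRat k0) {D : Finset (R →ₐ[K] K)} (hD : RatSet F k0 D)
    (I I' : Fin D.card → ℕ) :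
    (F.mat (fun a => ⇑(enum D a)) I).det * (F.mat (fun a => ⇑(enum D a)) I').det ∈ k0 := by
  rw [← Matrix.det_transpose (F.mat (fun a => ⇑(enum D a)) I), ← Matrix.det_mul]
  refine Rat_det_mem _ fun b b' => ?_
  have h1 : ((F.mat (fun a => ⇑(enum D a)) I).transpose * F.mat (fun a => ⇑(enum D a)) I') b b' =
      ∑ P ∈ D, P (F.e (I b) * F.e (I' b')) := by
    rw [← Rat_sum_enum D (fun P : R →ₐ[K] K => P (F.e (I b) * F.e (I' b'))), Matrix.mul_apply]
    refine Finset.sum_congr rfl fun a _ => ?_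
    rw [map_mul]
    rfl
  rw [h1]
  exact hD.sum_mem ((ratFn_e F (I b)).mul hF (ratFn_e F (I' b')))

/-- the entries of `bmat` are in `k0`. -/
theorem det_bmat_mem (hF : F.IsRat k0) {f : R} (hf : F.RatFn k0 f) {r : ℕ} (I' : Fin r → ℕ) :
    (bmat F f I').det ∈ k0 :=
  Rat_det_mem _ fun l l' => (hf.mul hF (ratFn_e F l)) (I' l')

end Fermat.Agent.S17
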