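import Fermat.Agent.S17.Glob.L2G
import Fermat.Agent.S17.Glob.Rat

/-!
# S17 / GLOB leaves `Dec`: (G2) decomposition `Λ(D, Z(f)) = #D h(f) + n S(D) + O(1)`, (G3) `h(f) = S(Z(f)) + O(1)`
-/

set_option autoImplicit false

noncomputable section

namespace Fermat.Agent.S17

open scoped Classical

variable {K R : Type*} [Field K] [CommRing R] [Algebra K R] (F : Frame K R) (𝔤 : GlobalField K)
variable {J : Type*} [AddCommGroup J] (C : ClassData F 𝔤.k0 J)

theorem IsZeros.ne_zero {f : R} {E : Finset (R →ₐ[K] K)} (h : IsZeros F f E) (h1 : 1 ≤ F.deg f) :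
    f ≠ 0 := by
  rintro rfl
  simp [Frame.deg] at h1

include C in
/-- **(G2) DEC.**  For `P ∈ D` apply `kt_glob` (level `n = deg f = #E`) to
`x = (f, enum E (up to the cast Fin n ≃ Fin E.card), P)` (`C.dvd_of_zeros` gives the divisibility condition);
sum over `P ∈ D`; `∑_{P ∈ D} gl |f(P)| = gl |∏_{P ∈ D} f(P)| = 0` (`gl_prod`, `RatSet.prod_mem`,
`gl_abv_of_mem`).  Constant: `M * max_{n ≤ M} C_n`. -/
theorem dec (hVV : StmtVV F) (M : ℕ) :
    ∃ c : ℝ, 0 ≤ c ∧ ∀ (f : R) (D E : Finset (R →ₐ[K] K)), F.RatFn 𝔤.k0 f → IsZeros F f E →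
      4 * F.g ≤ F.deg f → F.deg f ≤ M → D.card ≤ M → RatSet F 𝔤.k0 D → Disjoint D E →
      |Lam F 𝔤 D E - (D.card * hC F 𝔤 f + F.deg f * SS F 𝔤 D)| ≤ c := by
  -- the constants
  have hex : ∀ n : ℕ, ∃ c : ℝ, 0 ≤ c ∧ (4 * F.g ≤ n → ∀ x : KTData F n,
      |∑ k, gam F 𝔤 x.1.2.2 (x.1.2.1 k) -
        (hC F 𝔤 x.1.1 + n * sg F 𝔤 x.1.2.2 - 𝔤.gl fun w => 𝔤.abv w (x.1.2.2 x.1.1))| ≤ c) := by
    intro n
    by_cases hn : 4 * F.g ≤ n
    · obtain ⟨c, hc0, hc⟩ := kt_glob F 𝔤 hVV n hn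
      exact ⟨c, hc0, fun _ => hc⟩
    · exact ⟨0, le_rfl, fun h => absurd h hn⟩
  choose Cn hCn0 hCn using hex
  set c0 : ℝ := ∑ n ∈ Finset.range (M + 1), Cn n with hc0def
  have hc0 : 0 ≤ c0 := Finset.sum_nonneg fun n _ => hCn0 n
  have hle : ∀ n, n ≤ M → Cn n ≤ c0 := fun n hn =>
    Finset.single_le_sum (f := Cn) (fun i _ => hCn0 i) (Finset.mem_range.mpr (Nat.lt_succ_of_le hn))
  refine ⟨M * c0, mul_nonneg (Nat.cast_nonneg _) hc0, ?_⟩
  intro f D E hf hZ h4 hM hDM hD hDE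
  have hcard : E.card = F.deg f := hZ.2
  have hPf : ∀ P ∈ D, P f ≠ 0 := fun P hP h0 =>
    (Finset.disjoint_left.mp hDE hP) ((hZ.1 P).mp h0)
  -- the local statement at each point
  have key : ∀ P ∈ D, |∑ Q ∈ E, gam F 𝔤 P Q -
      (hC F 𝔤 f + F.deg f * sg F 𝔤 P - 𝔤.gl fun w => 𝔤.abv w (P f))| ≤ c0 := by
    intro P hP
    have hx : F.deg f = E.card ∧ Function.Injective (enum E) ∧ (∀ k, enum E k f = 0) ∧
        (∀ h : R, (∀ k, enum E k h = 0) → f ∣ h) ∧ P f ≠ 0 := by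
      refine ⟨hcard.symm, enum_injective E, fun k => (hZ.1 _).mpr (enum_mem E k), ?_, hPf P hP⟩
      intro h hh
      refine C.dvd_of_zeros f E hZ h fun Q hQ => ?_
      have : Q = enum E (E.equivFin ⟨Q, hQ⟩) := by simp [enum]
      rw [this]
      exact hh _
    have h1 := hCn E.card (by rw [hcard]; exact h4) ⟨(f, enum E, P), hx⟩
    simp only at h1
    rw [sum_enum E (fun Q => gam F 𝔤 P Q), hcard] at h1
    exact h1.trans (hle _ hM)
  -- product formula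
  have hprod : ∑ P ∈ D, (𝔤.gl fun w => 𝔤.abv w (P f)) = 0 := by
    rw [← GlobalField.gl_prod D (φ := fun P w => 𝔤.abv w (P f))
      (fun P hP => GlobalField.adm_abv (hPf P hP))]
    have h2 : (fun w => ∏ P ∈ D, 𝔤.abv w (P f)) = fun w => 𝔤.abv w (∏ P ∈ D, P f) := by
      funext w
      rw [map_prod]
    rw [h2]
    exact GlobalField.gl_abv_of_mem (Finset.prod_ne_zero_iff.mpr hPf) (hD.prod_mem hf)
  have hsum : Lam F 𝔤 D E - (D.card * hC F 𝔤 f + F.deg f * SS F 𝔤 D) =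
      ∑ P ∈ D, (∑ Q ∈ E, gam F 𝔤 P Q -
        (hC F 𝔤 f + F.deg f * sg F 𝔤 P - 𝔤.gl fun w => 𝔤.abv w (P f))) := by
    simp only [Finset.sum_sub_distrib, Finset.sum_add_distrib, Finset.sum_const, nsmul_eq_mul,
      ← Finset.mul_sum, hprod]
    unfold Lam SS
    ring
  rw [hsum]
  calc |∑ P ∈ D, (∑ Q ∈ E, gam F 𝔤 P Q -
        (hC F 𝔤 f + F.deg f * sg F 𝔤 P - 𝔤.gl fun w => 𝔤.abv w (P f)))|
      ≤ ∑ P ∈ D, |∑ Q ∈ E, gam F 𝔤 P Q -
        (hC F 𝔤 f + F.deg f * sg F 𝔤 P - 𝔤.gl fun w => 𝔤.abv w (P f))| :=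
        Finset.abs_sum_le_sum_abs _ _
    _ ≤ ∑ _P ∈ D, c0 := Finset.sum_le_sum key
    _ = D.card * c0 := by rw [Finset.sum_const, nsmul_eq_mul]
    _ ≤ M * c0 := mul_le_mul_of_nonneg_right (by exact_mod_cast hDM) hc0

/-- `m` pairwise disjoint rational sets of class `0` and of size `n' = max (max d0 (4g)) 1`
(`C.moving` with `x = 0`, `T` = union of the previous ones; induction on `m`). -/
theorem exists_disjoint_principal (m : ℕ) :
    ∃ E' : Fin m → Finset (R →ₐ[K] K), (∀ j, C.Rat (E' j)) ∧ (∀ j, C.cl (E' j) = 0) ∧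
      (∀ j, (E' j).card = max (max C.d0 (4 * F.g)) 1) ∧
      ∀ i j, i ≠ j → Disjoint (E' i) (E' j) := by
  induction m with
  | zero => exact ⟨Fin.elim0, fun j => j.elim0, fun j => j.elim0, fun j => j.elim0,
      fun j => j.elim0⟩
  | succ m ih =>
    obtain ⟨E', h1, h2, h3, h4⟩ := ih
    obtain ⟨A, hA, hAc, hAcl, hdis⟩ := C.moving 0 C.G.zero_mem (max (max C.d0 (4 * F.g)) 1)
      (le_trans (le_max_left _ _) (le_max_left _ _)) (Finset.univ.biUnion E')
    have hdis' : ∀ j, Disjoint A (E' j) := fun j =>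
      (Finset.disjoint_biUnion_right A Finset.univ E').1 hdis j (Finset.mem_univ j)
    refine ⟨Fin.cons A E', ?_, ?_, ?_, ?_⟩
    · intro j
      refine Fin.cases ?_ (fun j => ?_) j
      · simpa using hA
      · simpa using h1 j
    · intro j
      refine Fin.cases ?_ (fun j => ?_) j
      · simpa using hAcl
      · simpa using h2 j
    · intro j
      refine Fin.cases ?_ (fun j => ?_) j
      · simpa using hAc
      · simpa using h3 j
    · intro i j
      refine Fin.cases ?_ (fun i => ?_) i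
      · refine Fin.cases ?_ (fun j => ?_) j
        · intro h
          exact absurd rfl h
        · intro _
          simpa using hdis' j
      · refine Fin.cases ?_ (fun j => ?_) j
        · intro _
          simpa using (hdis' i).symm
        · intro h
          simpa using h4 i j (fun h' => h (by rw [h']))

/-- pigeonhole: among `M + 1` pairwise disjoint sets one is disjoint from a set with `≤ M` elements. -/
theorem exists_disjoint_of_card_le {α : Type*} {M : ℕ} (E' : Fin (M + 1) → Finset α)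
    (h : ∀ i j, i ≠ j → Disjoint (E' i) (E' j)) (E : Finset α) (hE : E.card ≤ M) :
    ∃ j, Disjoint (E' j) E := by
  by_contra hcon
  push Not at hcon
  have hex : ∀ j, ∃ x, x ∈ E' j ∧ x ∈ E := fun j => Finset.not_disjoint_iff.1 (hcon j)
  choose x hx1 hx2 using hex
  have hinj : Function.Injective x := by
    intro i j hij
    by_contra hne
    exact Finset.disjoint_left.1 (h i j hne) (hx1 i) (hij ▸ hx1 j)
  have h1 : (Finset.univ.image x).card ≤ E.card :=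
    Finset.card_le_card fun y hy => by
      obtain ⟨j, -, rfl⟩ := Finset.mem_image.1 hy
      exact hx2 j
  rw [Finset.card_image_of_injective _ hinj, Finset.card_univ, Fintype.card_fin] at h1
  omega

theorem lf_arith (n' n M A c a b a' b' L : ℝ) (hn' : 1 ≤ n') (hn0 : 0 ≤ n) (hnM : n ≤ M)
    (hA : |a' - b'| ≤ A) (hc : 0 ≤ c) (d1 : |L - (n' * a + n * b')| ≤ c)
    (d2 : |L - (n * a' + n' * b)| ≤ c) : |a - b| ≤ M * A + 2 * c := by
  have hA0 : 0 ≤ A := (abs_nonneg _).trans hA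
  have hM0 : 0 ≤ M := hn0.trans hnM
  obtain ⟨d11, d12⟩ := abs_le.mp d1
  obtain ⟨d21, d22⟩ := abs_le.mp d2
  obtain ⟨hY1, hY2⟩ := abs_le.mp hA
  have h1 : n * (a' - b') ≤ M * A :=
    (mul_le_mul_of_nonneg_left hY2 hn0).trans (mul_le_mul_of_nonneg_right hnM hA0)
  have h2 : n * (-(a' - b')) ≤ M * A :=
    (mul_le_mul_of_nonneg_left (by linarith) hn0).trans (mul_le_mul_of_nonneg_right hnM hA0)
  have k1 : n' * (a - b) ≤ M * A + 2 * c := by nlinarith
  have k2 : -(M * A + 2 * c) ≤ n' * (a - b) := by nlinarith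
  have hB : 0 ≤ M * A + 2 * c := by positivity
  rw [abs_le]
  constructor
  · by_contra hcon
    push Not at hcon
    have hneg : a - b < 0 := by linarith
    have : n' * (a - b) ≤ 1 * (a - b) := mul_le_mul_of_nonpos_right hn' hneg.le
    linarith
  · by_contra hcon
    push Not at hcon
    have hpos : 0 < a - b := by linarith
    have : 1 * (a - b) ≤ n' * (a - b) := mul_le_mul_of_nonneg_right hn' hpos.le
    linarith

/-- **(G3) LF.**  `h(f) = S(Z(f)) + O(1)`.  Fix `E'_0, …, E'_M` as above with `f'_j` (`C.principal`), `n' = #E'_j`.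
Given `(f, E)` choose `j` with `E'_j ∩ E = ∅`.  `dec` for `(f; E'_j, E)` and for `(f'_j; E, E'_j)` and `Lam_comm`:
`n' (h(f) - S(E)) = n (h(f'_j) - S(E'_j)) + O(1)`. -/
theorem lf (hVV : StmtVV F) (M : ℕ) :
    ∃ c : ℝ, 0 ≤ c ∧ ∀ (f : R) (E : Finset (R →ₐ[K] K)), F.RatFn 𝔤.k0 f → IsZeros F f E →
      C.Rat E → 4 * F.g ≤ F.deg f → F.deg f ≤ M → |hC F 𝔤 f - SS F 𝔤 E| ≤ c := by
  obtain ⟨n', hn'⟩ : ∃ n' : ℕ, n' = max (max C.d0 (4 * F.g)) 1 := ⟨_, rfl⟩
  have hn'1 : 1 ≤ n' := hn' ▸ le_max_right _ _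
  have hn'4 : 4 * F.g ≤ n' := hn' ▸ le_trans (le_max_right _ _) (le_max_left _ _)
  obtain ⟨E', hr, hcl, hcard, hdisj⟩ := exists_disjoint_principal F 𝔤 C (M + 1)
  rw [← hn'] at hcard
  choose f' hf'r hf'Z using fun j => C.principal (E' j) (hr j) (hcl j)
  have hdeg' : ∀ j, F.deg (f' j) = n' := fun j => by rw [← (hf'Z j).2, hcard j]
  obtain ⟨c, hc0, H⟩ := dec F 𝔤 C hVV (max M n')
  have hA0 : 0 ≤ ∑ j, |hC F 𝔤 (f' j) - SS F 𝔤 (E' j)| := Finset.sum_nonneg fun j _ => abs_nonneg _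
  have hAj : ∀ j, |hC F 𝔤 (f' j) - SS F 𝔤 (E' j)| ≤ ∑ j, |hC F 𝔤 (f' j) - SS F 𝔤 (E' j)| :=
    fun j => Finset.single_le_sum (f := fun j => |hC F 𝔤 (f' j) - SS F 𝔤 (E' j)|)
      (fun i _ => abs_nonneg _) (Finset.mem_univ j)
  refine ⟨M * (∑ j, |hC F 𝔤 (f' j) - SS F 𝔤 (E' j)|) + 2 * c, by positivity, ?_⟩
  intro f E hf hZ hE h4 hM
  have hEc : E.card = F.deg f := hZ.2
  obtain ⟨j, hj⟩ := exists_disjoint_of_card_le E' hdisj E (by rw [hEc]; exact hM)
  have d1 := H f (E' j) E hf hZ h4 (le_trans hM (le_max_left _ _))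
    (by rw [hcard j]; exact le_max_right _ _) (C.rat_ratSet _ (hr j)) hj
  have d2 := H (f' j) E (E' j) (hf'r j) (hf'Z j) (by rw [hdeg' j]; exact hn'4)
    (by rw [hdeg' j]; exact le_max_right _ _) (by rw [hEc]; exact le_trans hM (le_max_left _ _))
    (C.rat_ratSet _ hE) hj.symm
  rw [Lam_comm F 𝔤 E (E' j), hdeg' j, hEc] at d2
  rw [hcard j] at d1
  exact lf_arith n' (F.deg f) M _ c _ _ _ _ _ (by exact_mod_cast hn'1) (Nat.cast_nonneg _)
    (by exact_mod_cast hM) (hAj j) hc0 d1 d2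

end Fermat.Agent.S17
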