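import Fermat.Agent.S17.Glob.Adm
import Fermat.Agent.S17.Loc.Size

/-!
# S17 / GLOB: the global quantities (definitions) and their formal properties (leaf `Ht`)

`hN n P = ∑_w log |P|_{n,w}`, `hW n P = ∑_w log |∧ ξ_n(P_a)|_w`, `hC f = ∑_w log |f|_w`,
`sg P = hN n1 P / n1`, `gam P Q = hN n1 P + hN n1 Q - hW n1 (P,Q)` (`= h_Δ(P,Q)`),
`SS D = ∑_{P ∈ D} sg P`, `Lam D E = ∑_{P ∈ D, Q ∈ E} gam P Q`, `bet D = ∑_{pairs of D} gam`,
`L0 D E = Lam D E - #D SS E - #E SS D`, `HH n D = hW n (enum D)`.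
-/

set_option autoImplicit false

noncomputable section

namespace Fermat.Agent.S17

open scoped Classical

variable {K R : Type*} [Field K] [CommRing R] [Algebra K R] (F : Frame K R) (𝔤 : GlobalField K)

def hN (n : ℕ) (P : R →ₐ[K] K) : ℝ := 𝔤.gl fun w => F.nrm (𝔤.abv w) n P

def hW (n : ℕ) {d : ℕ} (P : Fin d → (R →ₐ[K] K)) : ℝ :=
  𝔤.gl fun w => F.wdg (𝔤.abv w) n (fun a => ⇑(P a))

def hC (f : R) : ℝ := 𝔤.gl fun w => F.cnrm (𝔤.abv w) f

def sg (P : R →ₐ[K] K) : ℝ := hN F 𝔤 F.n1 P / F.n1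

def gam (P Q : R →ₐ[K] K) : ℝ := hN F 𝔤 F.n1 P + hN F 𝔤 F.n1 Q - hW F 𝔤 F.n1 (two P Q)

def SS (D : Finset (R →ₐ[K] K)) : ℝ := ∑ P ∈ D, sg F 𝔤 P

def Lam (D E : Finset (R →ₐ[K] K)) : ℝ := ∑ P ∈ D, ∑ Q ∈ E, gam F 𝔤 P Q

def bet (D : Finset (R →ₐ[K] K)) : ℝ := (1 / 2) * ∑ p ∈ D.offDiag, gam F 𝔤 p.1 p.2

def L0 (D E : Finset (R →ₐ[K] K)) : ℝ :=
  Lam F 𝔤 D E - D.card * SS F 𝔤 E - E.card * SS F 𝔤 D

def HH (n : ℕ) (D : Finset (R →ₐ[K] K)) : ℝ := hW F 𝔤 n (enum D)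

theorem hN_nonneg (n : ℕ) (P : R →ₐ[K] K) : 0 ≤ hN F 𝔤 n P :=
  GlobalField.gl_nonneg fun w => F.one_le_nrm _ n P

theorem sg_nonneg (P : R →ₐ[K] K) : 0 ≤ sg F 𝔤 P :=
  div_nonneg (hN_nonneg F 𝔤 _ P) (Nat.cast_nonneg _)

theorem SS_nonneg (D : Finset (R →ₐ[K] K)) : 0 ≤ SS F 𝔤 D :=
  Finset.sum_nonneg fun P _ => sg_nonneg F 𝔤 P

/-- (`wdg_two_comm`) -/
theorem gam_comm (P Q : R →ₐ[K] K) : gam F 𝔤 P Q = gam F 𝔤 Q P := by
  have h : hW F 𝔤 F.n1 (two P Q) = hW F 𝔤 F.n1 (two Q P) := by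
    unfold hW
    exact GlobalField.gl_congr fun w => F.wdg_two_comm _ _ P Q
  unfold gam
  rw [h]
  ring

theorem enum_injective {α : Type*} (D : Finset α) : Function.Injective (enum D) := by
  intro a b h
  exact D.equivFin.symm.injective (Subtype.ext h)

theorem enum_mem {α : Type*} (D : Finset α) (a : Fin D.card) : enum D a ∈ D := by
  exact (D.equivFin.symm a).2

theorem sum_enum {α : Type*} (D : Finset α) (φ : α → ℝ) : ∑ a, φ (enum D a) = ∑ P ∈ D, φ P := by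
  rw [← Finset.sum_coe_sort D φ]
  exact Equiv.sum_comp D.equivFin.symm (fun x : D => φ x)

theorem prod_enum {α M : Type*} [CommMonoid M] (D : Finset α) (φ : α → M) :
    ∏ a, φ (enum D a) = ∏ P ∈ D, φ P := by
  rw [← Finset.prod_coe_sort D φ]
  exact Equiv.prod_comp D.equivFin.symm (fun x : D => φ x)

/-- a sum over `offDiag` as a double sum. -/
theorem Ht_sum_offDiag {α : Type*} (D : Finset α) (f : α → α → ℝ) :
    ∑ p ∈ D.offDiag, f p.1 p.2 = ∑ x ∈ D, ∑ y ∈ D, if x ≠ y then f x y else 0 := by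
  have h : D.offDiag = (D ×ˢ D).filter (fun p => p.1 ≠ p.2) := by
    ext p
    rw [Finset.mem_offDiag, Finset.mem_filter, Finset.mem_product, and_assoc]
  rw [h, Finset.sum_filter, Finset.sum_product]

/-- the sum over the pairs `a < b` of a symmetric function is half of the sum over `offDiag`. -/
theorem sum_pairs_enum {α : Type*} (D : Finset α) (φ : α → α → ℝ) (hφ : ∀ x y, φ x y = φ y x) :
    ∑ p ∈ pairs D.card, φ (enum D p.1) (enum D p.2) = (1 / 2) * ∑ p ∈ D.offDiag, φ p.1 p.2 := by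
  set G : Fin D.card → Fin D.card → ℝ := fun a b => φ (enum D a) (enum D b) with hG
  have hGs : ∀ a b, G a b = G b a := fun a b => hφ _ _
  have h1 : ∑ p ∈ D.offDiag, φ p.1 p.2 = ∑ a, ∑ b, if a ≠ b then G a b else 0 := by
    rw [Ht_sum_offDiag, ← sum_enum D]
    refine Finset.sum_congr rfl fun a _ => ?_
    rw [← sum_enum D]
    refine Finset.sum_congr rfl fun b _ => ?_
    by_cases hab : a = b
    · rw [if_neg (by rw [hab]; exact fun h => h rfl), if_neg (fun h => h hab)]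
    · rw [if_pos ((enum_injective D).ne hab), if_pos hab]
  have h2 : ∑ p ∈ pairs D.card, φ (enum D p.1) (enum D p.2)
      = ∑ a, ∑ b, if a < b then G a b else 0 := by
    rw [pairs, Finset.sum_filter, Fintype.sum_prod_type]
  have h3 : ∑ a, ∑ b, (if a ≠ b then G a b else 0)
      = (∑ a, ∑ b, if a < b then G a b else 0) + ∑ a, ∑ b, if b < a then G a b else 0 := by
    rw [← Finset.sum_add_distrib]
    refine Finset.sum_congr rfl fun a _ => ?_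
    rw [← Finset.sum_add_distrib]
    refine Finset.sum_congr rfl fun b _ => ?_
    rcases lt_trichotomy a b with h | h | h
    · rw [if_pos h.ne, if_pos h, if_neg h.le.not_gt, add_zero]
    · rw [if_neg (fun h' => h' h), if_neg h.le.not_gt, if_neg h.ge.not_gt, add_zero]
    · rw [if_pos h.ne', if_neg h.le.not_gt, if_pos h, zero_add]
  have h4 : ∑ a, ∑ b, (if b < a then G a b else 0) = ∑ a, ∑ b, if a < b then G a b else 0 := by
    rw [Finset.sum_comm]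
    refine Finset.sum_congr rfl fun a _ => Finset.sum_congr rfl fun b _ => ?_
    rw [hGs]
  rw [h1, h2, h3, h4]
  ring

theorem sum_pairs_gam (D : Finset (R →ₐ[K] K)) :
    ∑ p ∈ pairs D.card, gam F 𝔤 (enum D p.1) (enum D p.2) = bet F 𝔤 D :=
  sum_pairs_enum D _ (gam_comm F 𝔤)

theorem SS_union {D E : Finset (R →ₐ[K] K)} (h : Disjoint D E) :
    SS F 𝔤 (D ∪ E) = SS F 𝔤 D + SS F 𝔤 E :=
  Finset.sum_union h

theorem Lam_comm (D E : Finset (R →ₐ[K] K)) : Lam F 𝔤 D E = Lam F 𝔤 E D := by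
  unfold Lam
  rw [Finset.sum_comm]
  exact Finset.sum_congr rfl fun Q _ => Finset.sum_congr rfl fun P _ => gam_comm F 𝔤 P Q

theorem Lam_union_left {D D' : Finset (R →ₐ[K] K)} (h : Disjoint D D')
    (E : Finset (R →ₐ[K] K)) : Lam F 𝔤 (D ∪ D') E = Lam F 𝔤 D E + Lam F 𝔤 D' E :=
  Finset.sum_union h

theorem L0_comm (D E : Finset (R →ₐ[K] K)) : L0 F 𝔤 D E = L0 F 𝔤 E D := by
  unfold L0
  rw [Lam_comm]
  ring

theorem L0_union_left {D D' : Finset (R →ₐ[K] K)} (h : Disjoint D D')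
    (E : Finset (R →ₐ[K] K)) : L0 F 𝔤 (D ∪ D') E = L0 F 𝔤 D E + L0 F 𝔤 D' E := by
  unfold L0
  rw [Lam_union_left F 𝔤 h, SS_union F 𝔤 h, Finset.card_union_of_disjoint h]
  push_cast
  ring

theorem L0_union_right (D : Finset (R →ₐ[K] K)) {E E' : Finset (R →ₐ[K] K)}
    (h : Disjoint E E') : L0 F 𝔤 D (E ∪ E') = L0 F 𝔤 D E + L0 F 𝔤 D E' := by
  rw [L0_comm, L0_union_left F 𝔤 h, L0_comm F 𝔤 E, L0_comm F 𝔤 E']

/-- `β(D ∪ E) = β(D) + β(E) + Λ(D, E)` for disjoint `D`, `E`. -/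
theorem bet_union {D E : Finset (R →ₐ[K] K)} (h : Disjoint D E) :
    bet F 𝔤 (D ∪ E) = bet F 𝔤 D + bet F 𝔤 E + Lam F 𝔤 D E := by
  have hne : ∀ x ∈ D, ∀ y ∈ E, x ≠ y := fun x hx y hy hxy =>
    Finset.disjoint_left.1 h hx (hxy ▸ hy)
  have h1 : ∑ x ∈ D, ∑ y ∈ E, (if x ≠ y then gam F 𝔤 x y else 0) = Lam F 𝔤 D E :=
    Finset.sum_congr rfl fun x hx => Finset.sum_congr rfl fun y hy => if_pos (hne x hx y hy)
  have h2 : ∑ x ∈ E, ∑ y ∈ D, (if x ≠ y then gam F 𝔤 x y else 0) = Lam F 𝔤 E D :=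
    Finset.sum_congr rfl fun x hx => Finset.sum_congr rfl fun y hy =>
      if_pos (hne y hy x hx).symm
  unfold bet
  rw [Ht_sum_offDiag (D ∪ E) (gam F 𝔤), Ht_sum_offDiag D (gam F 𝔤), Ht_sum_offDiag E (gam F 𝔤),
    Finset.sum_union h]
  simp only [Finset.sum_union h, Finset.sum_add_distrib]
  rw [h1, h2, Lam_comm F 𝔤 E D]
  ring

/-- scaling by `λ` with `λ² ∈ k0`. -/
theorem hC_smul {c : K} (hc : c ≠ 0) (hk : c ^ 2 ∈ 𝔤.k0) {f : R} (hf : f ≠ 0) :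
    hC F 𝔤 (c • f) = hC F 𝔤 f := by
  unfold hC
  rw [GlobalField.gl_congr fun w => F.cnrm_smul (𝔤.abv w) c f,
    GlobalField.gl_mul (GlobalField.adm_abv hc) (adm_cnrm F 𝔤 hf),
    GlobalField.gl_abv_of_sq_mem hc hk, zero_add]

/-- a function with a coefficient `1` has height `≥ 0`. -/
theorem hC_nonneg {f : R} (h : ∃ i, F.e.repr f i = 1) : 0 ≤ hC F 𝔤 f := by
  obtain ⟨i, hi⟩ := h
  refine GlobalField.gl_nonneg fun w => ?_
  have hmem : i ∈ F.idx (F.deg f) := by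
    rw [F.mem_idx]
    refine Finset.le_sup (f := F.wt) ?_
    rw [Finsupp.mem_support_iff, hi]
    exact one_ne_zero
  have h1 := Finset.le_sup' (fun i => 𝔤.abv w (F.e.repr f i)) hmem
  simp only [hi, map_one] at h1
  exact h1

end Fermat.Agent.S17
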