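import Fermat.Agent.S17.Glob.Ht
import Fermat.Agent.S17.Loc.KT
import Fermat.Agent.S17.Loc.Mult

/-!
# S17 / GLOB leaves `L2G`: the local uniform estimates in global form

Every statement is: apply `UBound.glob 𝔤` (Glob/Adm.lean) to a `UBound` black box of LOC/VAL, expand `gl` of the
products with `gl_mul`, `gl_prod`, `gl_pow` (admissibility: `adm_nrm`, `adm_wdg`, `adm_cnrm`, `adm_bwdg`, `adm_abv`),
and rewrite with the definitions of `Glob/Ht.lean`.  Positivity of `wdg n1 (two P Q)` for `P ≠ Q`: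
`Frame.wdg_two_pos` + `Frame.exists_det_ne_zero_of_wdg_pos` (Glob/Sum.lean).
-/

set_option autoImplicit false

noncomputable section

namespace Fermat.Agent.S17

open scoped Classical

variable {K R : Type*} [Field K] [CommRing R] [Algebra K R] (F : Frame K R) (𝔤 : GlobalField K)

/-- `Frame.nrm_pow_le`: `n1 * hN n P ≤ n * hN n1 P + C`. -/
theorem hN_le (n : ℕ) : ∃ C : ℝ, 0 ≤ C ∧ ∀ P : R →ₐ[K] K, hN F 𝔤 n P ≤ n * sg F 𝔤 P + C := by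
  obtain ⟨C, hC0, hC⟩ := UBound.glob 𝔤 (F.nrm_pow_le n)
  have hn1 : (0 : ℝ) < (F.n1 : ℝ) := by
    have : 0 < F.n1 := by unfold Frame.n1; omega
    exact_mod_cast this
  refine ⟨C / F.n1, div_nonneg hC0 hn1.le, fun P => ?_⟩
  have h := hC P ((adm_nrm F 𝔤 n P).pow F.n1) ((adm_nrm F 𝔤 F.n1 P).pow n)
  rw [GlobalField.gl_pow (adm_nrm F 𝔤 n P), GlobalField.gl_pow (adm_nrm F 𝔤 F.n1 P)] at h
  unfold sg hN
  rw [mul_div_assoc', ← add_div, le_div_iff₀ hn1, mul_comm]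
  exact h

/-- `Frame.nrm_pow_ge`. -/
theorem hN_ge {n : ℕ} (hn : 4 * F.g ≤ n) :
    ∃ C : ℝ, 0 ≤ C ∧ ∀ P : R →ₐ[K] K, n * sg F 𝔤 P ≤ hN F 𝔤 n P + C := by
  obtain ⟨C, hC0, hC⟩ := UBound.glob 𝔤 (F.nrm_pow_ge hn)
  have hn1 : (0 : ℝ) < (F.n1 : ℝ) := by
    have : 0 < F.n1 := by unfold Frame.n1; omega
    exact_mod_cast this
  refine ⟨C / F.n1, div_nonneg hC0 hn1.le, fun P => ?_⟩
  have h := hC P ((adm_nrm F 𝔤 F.n1 P).pow n) ((adm_nrm F 𝔤 n P).pow F.n1)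
  rw [GlobalField.gl_pow (adm_nrm F 𝔤 n P), GlobalField.gl_pow (adm_nrm F 𝔤 F.n1 P)] at h
  unfold sg hN
  rw [mul_div_assoc', div_le_iff₀ hn1, add_mul, div_mul_cancel₀ _ hn1.ne', mul_comm (𝔤.gl _)]
  exact h

/-- two distinct points: the wedge at level `n1` is admissible. -/
theorem adm_wdg_two {P Q : R →ₐ[K] K} (h : P ≠ Q) :
    𝔤.Adm fun w => F.wdg (𝔤.abv w) F.n1 (fun a => ⇑(two P Q a)) :=
  adm_wdg F 𝔤 F.n1 (fun a => ⇑(two P Q a))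
    (F.exists_det_ne_zero_of_wdg_pos (F.wdg_two_pos AbsoluteValue.trivial h))

/-- HARD half (`vdm_hard`), global form.  The non-vanishing of the wedge also follows from `vdm_hard`
(apply it to any absolute value, e.g. `AbsoluteValue.trivial`: `vdmB > 0`, hence `vdmA > 0`). -/
theorem HH_ge (d N : ℕ) (hN : d * F.n1 + 4 * F.g ≤ N) :
    ∃ C : ℝ, 0 ≤ C ∧ ∀ D : Finset (R →ₐ[K] K), D.card = d →
      (∃ I ∈ F.idxFam N D.card, (F.mat (fun a => ⇑(enum D a)) I).det ≠ 0) ∧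
        N * SS F 𝔤 D - bet F 𝔤 D ≤ HH F 𝔤 N D + C := by
  revert hN
  intro hNN
  obtain ⟨C1, hC1, h1⟩ := UBound.glob 𝔤 (vdm_hard F d N hNN)
  obtain ⟨C2, hC2, h2⟩ := hN_ge F 𝔤 (n := N) (by omega)
  have hU := vdm_hard F d N hNN
  refine ⟨C1 + d * C2, by positivity, fun D hD => ?_⟩
  subst hD
  set P := enum D with hP
  have hne : ∀ p ∈ pairs D.card, P p.1 ≠ P p.2 := by
    intro p hp
    have hlt : p.1 < p.2 := (Finset.mem_filter.mp hp).2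
    exact (enum_injective D).ne hlt.ne
  have hBpos : ∀ v : AbsoluteValue K ℝ, 0 < vdmB F v N P := by
    intro v
    unfold vdmB
    exact mul_pos (Finset.prod_pos fun a _ => F.nrm_pos v N (P a))
      (Finset.prod_pos fun p hp => F.wdg_two_pos v (hne p hp))
  have hdet : ∃ I ∈ F.idxFam N D.card, (F.mat (fun a => ⇑(P a)) I).det ≠ 0 := by
    obtain ⟨S, hS, H⟩ := hU
    set v0 : AbsoluteValue K ℝ := AbsoluteValue.trivial with hv0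
    obtain ⟨C, hC, -, hle⟩ := H v0
    have h3 := (hBpos v0).trans_le (hle P)
    have h4 : 0 < vdmA F v0 N P :=
      (mul_pos_iff_of_pos_left (lt_of_lt_of_le one_pos hC)).1 h3
    unfold vdmA at h4
    have h5 : 0 < F.wdg v0 N (fun a => ⇑(P a)) := by
      by_contra hcon
      have h6 : F.wdg v0 N (fun a => ⇑(P a)) = 0 :=
        le_antisymm (not_lt.mp hcon) (F.wdg_nonneg _ _ _)
      rw [h6, zero_mul] at h4
      exact lt_irrefl _ h4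
    exact F.exists_det_ne_zero_of_wdg_pos h5
  refine ⟨hdet, ?_⟩
  have aW : 𝔤.Adm fun w => F.wdg (𝔤.abv w) N (fun a => ⇑(P a)) := adm_wdg F 𝔤 N _ hdet
  have aN : ∀ (n : ℕ) (Q : R →ₐ[K] K), 𝔤.Adm fun w => F.nrm (𝔤.abv w) n Q :=
    fun n Q => adm_nrm F 𝔤 n Q
  have aT : ∀ p ∈ pairs D.card,
      𝔤.Adm fun w => F.wdg (𝔤.abv w) F.n1 (fun a => ⇑(two (P p.1) (P p.2) a)) :=
    fun p hp => adm_wdg_two F 𝔤 (hne p hp)
  have aA1 : 𝔤.Adm fun w => ∏ p ∈ pairs D.card,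
      (F.nrm (𝔤.abv w) F.n1 (P p.1) * F.nrm (𝔤.abv w) F.n1 (P p.2)) :=
    GlobalField.Adm.prod _ fun p _ => (aN _ _).mul (aN _ _)
  have aB1 : 𝔤.Adm fun w => ∏ a, F.nrm (𝔤.abv w) N (P a) :=
    GlobalField.Adm.prod _ fun a _ => aN _ _
  have aB2 : 𝔤.Adm fun w => ∏ p ∈ pairs D.card,
      F.wdg (𝔤.abv w) F.n1 (fun a => ⇑(two (P p.1) (P p.2) a)) :=
    GlobalField.Adm.prod _ aT
  have hglA : 𝔤.gl (fun w => vdmA F (𝔤.abv w) N P) = HH F 𝔤 N D +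
      ∑ p ∈ pairs D.card, (hN F 𝔤 F.n1 (P p.1) + hN F 𝔤 F.n1 (P p.2)) := by
    unfold vdmA
    rw [GlobalField.gl_mul aW aA1, GlobalField.gl_prod _ (fun p _ => (aN _ _).mul (aN _ _))]
    congr 1
    exact Finset.sum_congr rfl fun p _ => GlobalField.gl_mul (aN _ _) (aN _ _)
  have hglB : 𝔤.gl (fun w => vdmB F (𝔤.abv w) N P) = ∑ a, hN F 𝔤 N (P a) +
      ∑ p ∈ pairs D.card, hW F 𝔤 F.n1 (two (P p.1) (P p.2)) := by
    unfold vdmB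
    rw [GlobalField.gl_mul aB1 aB2, GlobalField.gl_prod _ (fun a _ => aN _ _),
      GlobalField.gl_prod _ aT]
    rfl
  have h3 := h1 P (by unfold vdmB; exact aB1.mul aB2) (by unfold vdmA; exact aW.mul aA1)
  rw [hglA, hglB] at h3
  have h4 : bet F 𝔤 D = ∑ p ∈ pairs D.card, (hN F 𝔤 F.n1 (P p.1) + hN F 𝔤 F.n1 (P p.2)) -
      ∑ p ∈ pairs D.card, hW F 𝔤 F.n1 (two (P p.1) (P p.2)) := by
    rw [← sum_pairs_gam, ← Finset.sum_sub_distrib]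
    rfl
  have h5 : N * SS F 𝔤 D ≤ ∑ a, hN F 𝔤 N (P a) + D.card * C2 := by
    rw [sum_enum D (fun Q => hN F 𝔤 N Q)]
    unfold SS
    rw [Finset.mul_sum]
    calc ∑ Q ∈ D, (N : ℝ) * sg F 𝔤 Q ≤ ∑ Q ∈ D, (hN F 𝔤 N Q + C2) :=
          Finset.sum_le_sum fun Q _ => h2 Q
      _ = _ := by rw [Finset.sum_add_distrib, Finset.sum_const, nsmul_eq_mul]
  linarith

/-- EASY half (`vdm_easy_of_vv`), global form (uses `hN_le`). -/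
theorem HH_le (hVV : StmtVV F) (n d : ℕ) :
    ∃ C : ℝ, 0 ≤ C ∧ ∀ D : Finset (R →ₐ[K] K), D.card = d →
      (∃ I ∈ F.idxFam n D.card, (F.mat (fun a => ⇑(enum D a)) I).det ≠ 0) →
        HH F 𝔤 n D ≤ n * SS F 𝔤 D - bet F 𝔤 D + C := by
  obtain ⟨C₀, hC₀, H₀⟩ := UBound.glob 𝔤 (vdm_easy_of_vv F hVV n d)
  obtain ⟨C₁, hC₁, H₁⟩ := hN_le F 𝔤 n
  refine ⟨C₀ + d * C₁, by positivity, ?_⟩
  rintro D rfl hI
  set P := enum D with hP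
  have hne : ∀ p ∈ pairs D.card, P p.1 ≠ P p.2 := by
    intro p hp
    have hlt : p.1 < p.2 := (Finset.mem_filter.1 hp).2
    exact (enum_injective D).ne hlt.ne
  have a1 : 𝔤.Adm fun w => F.wdg (𝔤.abv w) n (fun a => ⇑(P a)) := adm_wdg F 𝔤 n _ hI
  have a2 : ∀ p ∈ pairs D.card, 𝔤.Adm fun w =>
      F.nrm (𝔤.abv w) F.n1 (P p.1) * F.nrm (𝔤.abv w) F.n1 (P p.2) :=
    fun p _ => (adm_nrm F 𝔤 _ _).mul (adm_nrm F 𝔤 _ _)
  have a3 : ∀ a ∈ (Finset.univ : Finset (Fin D.card)),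
      𝔤.Adm fun w => F.nrm (𝔤.abv w) n (P a) := fun a _ => adm_nrm F 𝔤 _ _
  have a4 : ∀ p ∈ pairs D.card, 𝔤.Adm fun w =>
      F.wdg (𝔤.abv w) F.n1 (fun a => ⇑(two (P p.1) (P p.2) a)) :=
    fun p hp => adm_wdg_two F 𝔤 (hne p hp)
  have hA : 𝔤.gl (fun w => vdmA F (𝔤.abv w) n P) = HH F 𝔤 n D +
      ∑ p ∈ pairs D.card, (hN F 𝔤 F.n1 (P p.1) + hN F 𝔤 F.n1 (P p.2)) := by
    unfold vdmA
    rw [GlobalField.gl_mul a1 (GlobalField.Adm.prod _ a2), GlobalField.gl_prod _ a2]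
    congr 1
    refine Finset.sum_congr rfl fun p _ => ?_
    exact GlobalField.gl_mul (adm_nrm F 𝔤 _ _) (adm_nrm F 𝔤 _ _)
  have hB : 𝔤.gl (fun w => vdmB F (𝔤.abv w) n P) = ∑ a, hN F 𝔤 n (P a) +
      ∑ p ∈ pairs D.card, hW F 𝔤 F.n1 (two (P p.1) (P p.2)) := by
    unfold vdmB
    rw [GlobalField.gl_mul (GlobalField.Adm.prod _ a3) (GlobalField.Adm.prod _ a4),
      GlobalField.gl_prod _ a3, GlobalField.gl_prod _ a4]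
    rfl
  have hle := H₀ P (by unfold vdmA; exact a1.mul (GlobalField.Adm.prod _ a2))
    (by unfold vdmB; exact (GlobalField.Adm.prod _ a3).mul (GlobalField.Adm.prod _ a4))
  rw [hA, hB] at hle
  have hbet : bet F 𝔤 D = ∑ p ∈ pairs D.card, (hN F 𝔤 F.n1 (P p.1) + hN F 𝔤 F.n1 (P p.2)) -
      ∑ p ∈ pairs D.card, hW F 𝔤 F.n1 (two (P p.1) (P p.2)) := by
    rw [← sum_pairs_gam, ← Finset.sum_sub_distrib]
    rfl
  have hsum : ∑ a, hN F 𝔤 n (P a) ≤ n * SS F 𝔤 D + D.card * C₁ := by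
    rw [sum_enum D (fun Q => hN F 𝔤 n Q)]
    unfold SS
    rw [Finset.mul_sum]
    calc ∑ Q ∈ D, hN F 𝔤 n Q ≤ ∑ Q ∈ D, (n * sg F 𝔤 Q + C₁) :=
          Finset.sum_le_sum fun Q _ => H₁ Q
      _ = ∑ Q ∈ D, n * sg F 𝔤 Q + D.card * C₁ := by
          rw [Finset.sum_add_distrib, Finset.sum_const, nsmul_eq_mul]
  rw [hbet]
  linarith

/-- `kt_le`, `kt_ge`, global form (uses `hN_le`, `hN_ge`). -/
theorem kt_glob (hVV : StmtVV F) (n : ℕ) (hn : 4 * F.g ≤ n) :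
    ∃ C : ℝ, 0 ≤ C ∧ ∀ x : KTData F n,
      |∑ k, gam F 𝔤 x.1.2.2 (x.1.2.1 k) -
        (hC F 𝔤 x.1.1 + n * sg F 𝔤 x.1.2.2 - 𝔤.gl fun w => 𝔤.abv w (x.1.2.2 x.1.1))| ≤ C := by
  obtain ⟨C1, hC1, h1⟩ := (kt_le F hVV n hn).glob 𝔤
  obtain ⟨C2, hC2, h2⟩ := (kt_ge F hVV n hn).glob 𝔤
  obtain ⟨C3, hC3, h3⟩ := hN_le F 𝔤 n
  obtain ⟨C4, hC4, h4⟩ := hN_ge F 𝔤 hn
  refine ⟨C1 + C2 + C3 + C4, by positivity, fun x => ?_⟩
  have hf := kt_f_ne_zero F x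
  have aP : 𝔤.Adm fun w => 𝔤.abv w (x.1.2.2 x.1.1) := GlobalField.adm_abv x.2.2.2.2.2
  have aN : ∀ k, 𝔤.Adm fun w =>
      F.nrm (𝔤.abv w) F.n1 x.1.2.2 * F.nrm (𝔤.abv w) F.n1 (x.1.2.1 k) :=
    fun k => (adm_nrm F 𝔤 _ _).mul (adm_nrm F 𝔤 _ _)
  have aW : ∀ k, 𝔤.Adm fun w =>
      F.wdg (𝔤.abv w) F.n1 (fun a => ⇑(two x.1.2.2 (x.1.2.1 k) a)) :=
    fun k => adm_wdg_two F 𝔤 (kt_P_ne F x k)
  have aCN : 𝔤.Adm fun w => F.cnrm (𝔤.abv w) x.1.1 * F.nrm (𝔤.abv w) n x.1.2.2 :=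
    (adm_cnrm F 𝔤 hf).mul (adm_nrm F 𝔤 n _)
  have aX : 𝔤.Adm fun w => ktX F (𝔤.abv w) x :=
    aP.mul (GlobalField.Adm.prod Finset.univ fun k _ => aN k)
  have aY : 𝔤.Adm fun w => ktY F (𝔤.abv w) x :=
    aCN.mul (GlobalField.Adm.prod Finset.univ fun k _ => aW k)
  have eX : 𝔤.gl (fun w => ktX F (𝔤.abv w) x) = 𝔤.gl (fun w => 𝔤.abv w (x.1.2.2 x.1.1)) +
      ∑ k, (hN F 𝔤 F.n1 x.1.2.2 + hN F 𝔤 F.n1 (x.1.2.1 k)) := by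
    unfold ktX
    rw [GlobalField.gl_mul aP (GlobalField.Adm.prod Finset.univ fun k _ => aN k),
      GlobalField.gl_prod Finset.univ fun k _ => aN k]
    congr 1
    refine Finset.sum_congr rfl fun k _ => ?_
    exact GlobalField.gl_mul (adm_nrm F 𝔤 _ _) (adm_nrm F 𝔤 _ _)
  have eY : 𝔤.gl (fun w => ktY F (𝔤.abv w) x) = hC F 𝔤 x.1.1 + hN F 𝔤 n x.1.2.2 +
      ∑ k, hW F 𝔤 F.n1 (two x.1.2.2 (x.1.2.1 k)) := by
    unfold ktY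
    rw [GlobalField.gl_mul aCN (GlobalField.Adm.prod Finset.univ fun k _ => aW k),
      GlobalField.gl_prod Finset.univ fun k _ => aW k,
      GlobalField.gl_mul (adm_cnrm F 𝔤 hf) (adm_nrm F 𝔤 n _)]
    rfl
  have hsum : ∑ k, gam F 𝔤 x.1.2.2 (x.1.2.1 k) =
      ∑ k, (hN F 𝔤 F.n1 x.1.2.2 + hN F 𝔤 F.n1 (x.1.2.1 k)) -
        ∑ k, hW F 𝔤 F.n1 (two x.1.2.2 (x.1.2.1 k)) := by
    rw [← Finset.sum_sub_distrib]
    rfl
  have i1 := h1 x aX aY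
  have i2 := h2 x aY aX
  have i3 := h3 x.1.2.2
  have i4 := h4 x.1.2.2
  rw [eX, eY] at i1 i2
  rw [hsum, abs_le]
  constructor <;> linarith

/-- `Frame.cnrm_mul_le`, `Frame.cnrm_mul_ge`. -/
theorem hC_mul (n : ℕ) :
    ∃ C : ℝ, 0 ≤ C ∧ ∀ f h : R, f ≠ 0 → h ≠ 0 → f ∈ F.le n → h ∈ F.le n →
      |hC F 𝔤 (f * h) - (hC F 𝔤 f + hC F 𝔤 h)| ≤ C := by
  obtain ⟨C1, hC1, h1⟩ := (F.cnrm_mul_le n).glob 𝔤
  obtain ⟨C2, hC2, h2⟩ := (F.cnrm_mul_ge n).glob 𝔤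
  refine ⟨max C1 C2, le_max_of_le_left hC1, fun f h hf hh hfn hhn => ?_⟩
  have hfh : f * h ≠ 0 := F.mul_ne_zero' hf hh
  have hA : 𝔤.Adm fun w => F.cnrm (𝔤.abv w) (f * h) := adm_cnrm F 𝔤 hfh
  have hB : 𝔤.Adm fun w => F.cnrm (𝔤.abv w) f * F.cnrm (𝔤.abv w) h :=
    (adm_cnrm F 𝔤 hf).mul (adm_cnrm F 𝔤 hh)
  have hmul : 𝔤.gl (fun w => F.cnrm (𝔤.abv w) f * F.cnrm (𝔤.abv w) h) =
      hC F 𝔤 f + hC F 𝔤 h := GlobalField.gl_mul (adm_cnrm F 𝔤 hf) (adm_cnrm F 𝔤 hh)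
  have e1 := h1 ⟨(f, h), hfn, hhn⟩ hA hB
  have e2 := h2 ⟨(f, h), hfn, hhn⟩ hB hA
  simp only at e1 e2
  rw [hmul] at e1 e2
  have e1' : hC F 𝔤 (f * h) ≤ hC F 𝔤 f + hC F 𝔤 h + C1 := e1
  have e2' : hC F 𝔤 f + hC F 𝔤 h ≤ hC F 𝔤 (f * h) + C2 := e2
  have m1 := le_max_left C1 C2
  have m2 := le_max_right C1 C2
  rw [abs_le]
  constructor <;> linarith

/-- `bwdg_le`. -/
theorem gl_bwdg_le (N n r : ℕ) :
    ∃ C : ℝ, 0 ≤ C ∧ ∀ f : R, f ≠ 0 → f ∈ F.le n →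
      (∃ I ∈ F.idxFam N r, (bmat F f I).det ≠ 0) →
        (𝔤.gl fun w => bwdg F (𝔤.abv w) N r f) ≤ r * hC F 𝔤 f + C := by
  obtain ⟨C, hC0, h⟩ := (bwdg_le F N n r).glob 𝔤
  refine ⟨C, hC0, fun f hf hfn hI => ?_⟩
  have e := h ⟨f, hfn⟩ (adm_bwdg F 𝔤 N r f hI) ((adm_cnrm F 𝔤 hf).pow r)
  simp only at e
  rw [GlobalField.gl_pow (adm_cnrm F 𝔤 hf) r] at e
  exact e

end Fermat.Agent.S17
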