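import Fermat.Agent.S17.Glob.Defs

/-!
# S17 / GLOB, step G9 (abstract part): from a quasi-quadratic function which is bounded below and Northcott on
a "good" subset to `HeightStmt`

`q : G → ℝ` satisfies the parallelogram law up to `O(1)`; `Good ⊆ G`; a finite set `𝒯` such that every `y` has a
`t ∈ 𝒯` with `y + t`, `y - t` good; `q ≥ - C` on the good set and `{y good | q y ≤ B}` is finite.
-/

set_option autoImplicit false

namespace Fermat.Agent.S17

theorem heightStmt_of_good {G : Type*} [AddCommGroup G] (q : G → ℝ) (c : ℝ)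
    (hpar : ∀ x y, |q (x + y) + q (x - y) - 2 * (q x + q y)| ≤ c)
    (Good : G → Prop) (𝒯 : Finset G) (h𝒯 : ∀ y, ∃ t ∈ 𝒯, Good (y + t) ∧ Good (y - t))
    (C : ℝ) (hC : ∀ y, Good y → -C ≤ q y)
    (hN : ∀ B : ℝ, {y | Good y ∧ q y ≤ B}.Finite) : HeightStmt G := by
  classical
  -- a bound for `q` on `𝒯`
  obtain ⟨M, hM⟩ : ∃ M : ℝ, ∀ t ∈ 𝒯, q t ≤ M := by
    refine ⟨∑ t ∈ 𝒯, |q t|, fun t ht => ?_⟩
    exact (le_abs_self _).trans
      (Finset.single_le_sum (f := fun t => |q t|) (fun i _ => abs_nonneg _) ht)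
  have hlow : ∀ y, -(C + M + c / 2) ≤ q y := by
    intro y
    obtain ⟨t, ht, h1, h2⟩ := h𝒯 y
    have h3 := abs_le.1 (hpar y t)
    have h4 := hC _ h1
    have h5 := hC _ h2
    have h6 := hM t ht
    linarith [h3.1, h3.2]
  refine ⟨fun y => q y + (C + M + c / 2), fun y => by have := hlow y; linarith,
    ⟨c + 2 * |C + M + c / 2|, fun x y => ?_⟩, fun B => ?_⟩
  · have h3 := hpar x y
    have h4 : q (x + y) + (C + M + c / 2) + (q (x - y) + (C + M + c / 2)) -
        2 * (q x + (C + M + c / 2) + (q y + (C + M + c / 2))) =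
        (q (x + y) + q (x - y) - 2 * (q x + q y)) + (-2) * (C + M + c / 2) := by ring
    rw [h4]
    refine (abs_add_le _ _).trans ?_
    rw [abs_mul]
    have : |(-2 : ℝ)| = 2 := by norm_num
    rw [this]
    linarith
  · -- Northcott
    have hfin := hN (2 * (B - (C + M + c / 2)) + 2 * M + C + c)
    have hfin2 : (⋃ t ∈ 𝒯, (fun z => z - t) ''
        {y | Good y ∧ q y ≤ 2 * (B - (C + M + c / 2)) + 2 * M + C + c}).Finite :=
      Set.Finite.biUnion 𝒯.finite_toSet fun t _ => hfin.image _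
    refine hfin2.subset fun y hy => ?_
    have hy' : q y + (C + M + c / 2) ≤ B := hy
    obtain ⟨t, ht, h1, h2⟩ := h𝒯 y
    have h3 := abs_le.1 (hpar y t)
    have h5 := hC _ h2
    have h6 := hM t ht
    refine Set.mem_biUnion (Finset.mem_coe.2 ht) ⟨y + t, ⟨h1, ?_⟩, by simp⟩
    linarith [h3.1, h3.2]

end Fermat.Agent.S17
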