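import Fermat.Agent.S17.Glob.Dec

/-!
# S17 / GLOB leaves `Pair` (G4): the pairing `L0` only depends on the classes, up to `O(1)`
-/

set_option autoImplicit false

noncomputable section

namespace Fermat.Agent.S17

open scoped Classical

variable {K R : Type*} [Field K] [CommRing R] [Algebra K R] (F : Frame K R) (𝔤 : GlobalField K)
variable {J : Type*} [AddCommGroup J] (C : ClassData F 𝔤.k0 J)

/-- `L0(D, E) = O(1)` if `E` is rational of class `0`.  (`C.principal` gives `f`; `#E = deg f`;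
`L0 D E = Λ(D,E) - #D S(E) - #E S(D) = #D (h(f) - S(E)) + O(1)` by `dec` and `lf`.) -/
theorem L0_principal (hVV : StmtVV F) (M : ℕ) :
    ∃ c : ℝ, 0 ≤ c ∧ ∀ D E : Finset (R →ₐ[K] K), C.Rat D → C.Rat E → C.cl E = 0 →
      4 * F.g ≤ E.card → E.card ≤ M → D.card ≤ M → Disjoint D E → |L0 F 𝔤 D E| ≤ c := by
  obtain ⟨c1, hc10, hc1⟩ := dec F 𝔤 C hVV M
  obtain ⟨c2, hc20, hc2⟩ := lf F 𝔤 C hVV M
  refine ⟨c1 + M * c2, by positivity, fun D E hD hE hcl hg hEM hDM hDE => ?_⟩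
  obtain ⟨f, hf, hZ⟩ := C.principal E hE hcl
  have hdeg : E.card = F.deg f := hZ.2
  have h1 := hc1 f D E hf hZ (hdeg ▸ hg) (hdeg ▸ hEM) hDM (C.rat_ratSet D hD) hDE
  have h2 := hc2 f E hf hZ hE (hdeg ▸ hg) (hdeg ▸ hEM)
  have h3 : L0 F 𝔤 D E = (Lam F 𝔤 D E - (D.card * hC F 𝔤 f + F.deg f * SS F 𝔤 D)) +
      D.card * (hC F 𝔤 f - SS F 𝔤 E) := by
    unfold L0
    rw [hdeg]
    ring
  rw [h3]
  refine (abs_add_le _ _).trans (add_le_add h1 ?_)
  rw [abs_mul, Nat.abs_cast]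
  exact mul_le_mul (by exact_mod_cast hDM) h2 (abs_nonneg _) (Nat.cast_nonneg _)

/-- (WD) choose `A` rational of class `- cl D`, of size `a = max (max d0 (4g)) 1`, disjoint from `D ∪ D' ∪ E`
(`C.moving`); `D ∪ A`, `D' ∪ A` are rational of class `0` (`rat_union`, `cl_union`);
`L0 (D ∪ A) E = L0 D E + L0 A E` (`L0_union_left`), `L0_comm`, `L0_principal` with `M + a`. -/
theorem L0_wd (hVV : StmtVV F) (M : ℕ) :
    ∃ c : ℝ, 0 ≤ c ∧ ∀ D D' E : Finset (R →ₐ[K] K), C.Rat D → C.Rat D' → C.Rat E →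
      C.cl D = C.cl D' → C.cl D ∈ C.G → D.card ≤ M → D'.card ≤ M → E.card ≤ M →
      Disjoint D E → Disjoint D' E → |L0 F 𝔤 D E - L0 F 𝔤 D' E| ≤ c := by
  set a : ℕ := max (max C.d0 (4 * F.g)) 1 with ha
  have ha0 : C.d0 ≤ a := le_trans (le_max_left _ _) (le_max_left _ _)
  have hag : 4 * F.g ≤ a := le_trans (le_max_right _ _) (le_max_left _ _)
  obtain ⟨c, hc0, hc⟩ := L0_principal F 𝔤 C hVV (M + a)
  refine ⟨2 * c, by positivity, fun D D' E hD hD' hE hcl hG hDM hD'M hEM hDE hD'E => ?_⟩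
  obtain ⟨A, hA, hAc, hAcl, hdis⟩ := C.moving (-C.cl D) (C.G.neg_mem hG) a ha0 (D ∪ D' ∪ E)
  simp only [Finset.disjoint_union_right] at hdis
  obtain ⟨⟨hAD, hAD'⟩, hAE⟩ := hdis
  have h1 := hc E (D ∪ A) hE (C.rat_union _ _ hD hA)
    (by rw [C.cl_union _ _ hAD.symm, hAcl, add_neg_cancel])
    (by rw [Finset.card_union_of_disjoint hAD.symm, hAc]; omega)
    (by rw [Finset.card_union_of_disjoint hAD.symm, hAc]; omega) (by omega)
    (Finset.disjoint_union_right.2 ⟨hDE.symm, hAE.symm⟩)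
  have h2 := hc E (D' ∪ A) hE (C.rat_union _ _ hD' hA)
    (by rw [C.cl_union _ _ hAD'.symm, hAcl, hcl, add_neg_cancel])
    (by rw [Finset.card_union_of_disjoint hAD'.symm, hAc]; omega)
    (by rw [Finset.card_union_of_disjoint hAD'.symm, hAc]; omega) (by omega)
    (Finset.disjoint_union_right.2 ⟨hD'E.symm, hAE.symm⟩)
  rw [L0_union_right F 𝔤 E hAD.symm, L0_comm F 𝔤 E D] at h1
  rw [L0_union_right F 𝔤 E hAD'.symm, L0_comm F 𝔤 E D'] at h2
  rw [abs_le] at h1 h2 ⊢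
  constructor <;> linarith [h1.1, h1.2, h2.1, h2.2]

/-- (WD2) three-step chain: choose `D''` rational of class `cl D`, size `max (max d0 (4g)) 1`, disjoint from `E ∪ E'`:
`L0 D E ≈ L0 D'' E ≈ L0 D'' E' ≈ L0 D' E'` (`L0_wd` three times, `L0_comm`). -/
theorem L0_inv (hVV : StmtVV F) (M : ℕ) :
    ∃ c : ℝ, 0 ≤ c ∧ ∀ D D' E E' : Finset (R →ₐ[K] K), C.Rat D → C.Rat D' → C.Rat E → C.Rat E' →
      C.cl D = C.cl D' → C.cl E = C.cl E' → C.cl D ∈ C.G → C.cl E ∈ C.G →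
      D.card ≤ M → D'.card ≤ M → E.card ≤ M → E'.card ≤ M →
      Disjoint D E → Disjoint D' E' → |L0 F 𝔤 D E - L0 F 𝔤 D' E'| ≤ c := by
  set a : ℕ := max (max C.d0 (4 * F.g)) 1 with ha
  have ha0 : C.d0 ≤ a := le_trans (le_max_left _ _) (le_max_left _ _)
  obtain ⟨c, hc0, hc⟩ := L0_wd F 𝔤 C hVV (M + a)
  refine ⟨3 * c, by positivity, fun D D' E E' hD hD' hE hE' hclD hclE hGD hGE hDM hD'M hEM hE'M
    hDE hD'E' => ?_⟩
  obtain ⟨A, hA, hAc, hAcl, hdis⟩ := C.moving (C.cl D) hGD a ha0 (E ∪ E')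
  rw [Finset.disjoint_union_right] at hdis
  obtain ⟨hAE, hAE'⟩ := hdis
  have h1 := hc D A E hD hA hE hAcl.symm hGD (by omega) (by omega) (by omega) hDE hAE
  have h2 := hc E E' A hE hE' hA hclE hGE (by omega) (by omega) (by omega) hAE.symm hAE'.symm
  have h3 := hc A D' E' hA hD' hE' (hAcl.trans hclD) (hAcl ▸ hGD) (by omega) (by omega) (by omega)
    hAE' hD'E'
  rw [L0_comm F 𝔤 E A, L0_comm F 𝔤 E' A] at h2
  rw [abs_le] at h1 h2 h3 ⊢
  constructor <;> linarith [h1.1, h1.2, h2.1, h2.2, h3.1, h3.2]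

end Fermat.Agent.S17
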