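import Fermat.Agent.S17.Glob.Pair

/-!
# S17 / GLOB leaves `Quad` (G5): the quasi-quadratic function `qq` on `C.G`
-/

set_option autoImplicit false

noncomputable section

namespace Fermat.Agent.S17

open scoped Classical

variable {K R : Type*} [Field K] [CommRing R] [Algebra K R] (F : Frame K R) (𝔤 : GlobalField K)
variable {J : Type*} [AddCommGroup J] (C : ClassData F 𝔤.k0 J)

variable {F 𝔤} in
/-- the reference size of representatives. -/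
def ClassData.d1 (C : ClassData F 𝔤.k0 J) : ℕ := max (max C.d0 (4 * F.g)) 1

/-- a rational representative of size `d1` avoiding `T`. -/
theorem exists_rep (x : J) (hx : x ∈ C.G) (T : Finset (R →ₐ[K] K)) :
    ∃ D, C.Rat D ∧ D.card = C.d1 ∧ C.cl D = x ∧ Disjoint D T :=
  C.moving x hx C.d1 (le_trans (le_max_left _ _) (le_max_left _ _)) T

theorem exists_reps (x : C.G) :
    ∃ p : Finset (R →ₐ[K] K) × Finset (R →ₐ[K] K), C.Rat p.1 ∧ C.Rat p.2 ∧ p.1.card = C.d1 ∧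
      p.2.card = C.d1 ∧ C.cl p.1 = x ∧ C.cl p.2 = x ∧ Disjoint p.1 p.2 := by
  obtain ⟨D, h1, h2, h3, -⟩ := exists_rep F 𝔤 C x x.2 ∅
  obtain ⟨E, h1', h2', h3', h4⟩ := exists_rep F 𝔤 C x x.2 D
  exact ⟨(D, E), h1, h1', h2, h2', h3, h3', h4.symm⟩

/-- `q(x) = - L0(D, E)`, `D`, `E` chosen disjoint rational representatives of `x` of size `d1`. -/
def qq (x : C.G) : ℝ :=
  - L0 F 𝔤 (exists_reps F 𝔤 C x).choose.1 (exists_reps F 𝔤 C x).choose.2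

/-- (`L0_inv` with `M = 2 d1`.) -/
theorem qq_eq (hVV : StmtVV F) :
    ∃ c : ℝ, 0 ≤ c ∧ ∀ (x : C.G) (D E : Finset (R →ₐ[K] K)), C.Rat D → C.Rat E →
      C.cl D = x → C.cl E = x → D.card ≤ 2 * C.d1 → E.card ≤ 2 * C.d1 → Disjoint D E →
      |qq F 𝔤 C x + L0 F 𝔤 D E| ≤ c := by
  obtain ⟨c, hc0, hc⟩ := L0_inv F 𝔤 C hVV (2 * C.d1)
  refine ⟨c, hc0, fun x D E hD hE hDx hEx hDc hEc hDE => ?_⟩
  obtain ⟨h1, h2, h3, h4, h5, h6, h7⟩ := (exists_reps F 𝔤 C x).choose_spec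
  have := hc D (exists_reps F 𝔤 C x).choose.1 E (exists_reps F 𝔤 C x).choose.2 hD h1 hE h2
    (hDx.trans h5.symm) (hEx.trans h6.symm) (hDx ▸ x.2) (hEx ▸ x.2) hDc (by omega) hEc (by omega)
    hDE h7
  unfold qq
  rwa [neg_add_eq_sub]

/-- `D` of class `x`, `E` of class `-x`: `q(x) = L0(D, E) + O(1)`.  Choose `E''` rational of class `x`, size `d1`,
disjoint from `D ∪ E`: `L0 D E + L0 D E'' = L0 D (E ∪ E'') = O(1)` (`L0_union_right`, `L0_principal` with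
`M = 2 d1`; here `E.card = d1` is assumed), and `qq_eq` for `(D, E'')`. -/
theorem qq_eq_neg (hVV : StmtVV F) :
    ∃ c : ℝ, 0 ≤ c ∧ ∀ (x : C.G) (D E : Finset (R →ₐ[K] K)), C.Rat D → C.Rat E →
      C.cl D = x → C.cl E = -(x : J) → D.card = C.d1 → E.card = C.d1 → Disjoint D E →
      |qq F 𝔤 C x - L0 F 𝔤 D E| ≤ c := by
  obtain ⟨c1, hc10, hc1⟩ := L0_principal F 𝔤 C hVV (2 * C.d1)
  obtain ⟨c2, hc20, hc2⟩ := qq_eq F 𝔤 C hVV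
  refine ⟨c1 + c2, add_nonneg hc10 hc20, fun x D E hD hE hDx hEx hDc hEc hDE => ?_⟩
  obtain ⟨E'', hE'', hE''c, hE''x, hdis⟩ := exists_rep F 𝔤 C x x.2 (D ∪ E)
  rw [Finset.disjoint_union_right] at hdis
  have hEE : Disjoint E E'' := hdis.2.symm
  have hg : 4 * F.g ≤ C.d1 := le_trans (le_max_right _ _) (le_max_left _ _)
  have hcard : (E ∪ E'').card = 2 * C.d1 := by
    rw [Finset.card_union_of_disjoint hEE, hEc, hE''c]; ring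
  have h1 := hc1 D (E ∪ E'') hD (C.rat_union _ _ hE hE'')
    (by rw [C.cl_union _ _ hEE, hEx, hE''x, neg_add_cancel]) (by omega) hcard.le (by omega)
    (Finset.disjoint_union_right.2 ⟨hDE, hdis.1.symm⟩)
  rw [L0_union_right F 𝔤 D hEE] at h1
  have h2 := hc2 x D E'' hD hE'' hDx hE''x (by omega) (by omega) hdis.1.symm
  rw [abs_le] at h1 h2 ⊢
  constructor <;> linarith [h1.1, h1.2, h2.1, h2.2]

/-- **Parallelogram law up to `O(1)`.**  Choose successively (`exists_rep`, `T` = union of the previous sets) pairwise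
disjoint rational sets of size `d1`: `X1, X2` of class `x`, `Y1, Y2` of class `y`, `Y1', Y2'` of class `-y`.
`q(x+y) ≈ -L0 (X1 ∪ Y1) (X2 ∪ Y2)`, `q(x-y) ≈ -L0 (X1 ∪ Y1') (X2 ∪ Y2')` (`qq_eq`); expand by biadditivity;
`L0 X1 Y2 + L0 X1 Y2' = L0 X1 (Y2 ∪ Y2') ≈ 0`, `L0 Y1 X2 + L0 Y1' X2 ≈ 0`,
`L0 Y1' Y2' ≈ - L0 Y1 Y2' ≈ L0 Y1 Y2` (`L0_principal`, `L0_comm`); `L0 X1 X2 ≈ -q(x)`, `L0 Y1 Y2 ≈ -q(y)`. -/
theorem qq_parallelogram (hVV : StmtVV F) :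
    ∃ c : ℝ, ∀ x y : C.G,
      |qq F 𝔤 C (x + y) + qq F 𝔤 C (x - y) - 2 * (qq F 𝔤 C x + qq F 𝔤 C y)| ≤ c := by
  obtain ⟨c1, hc10, hc1⟩ := L0_principal F 𝔤 C hVV (2 * C.d1)
  obtain ⟨c2, hc20, hc2⟩ := qq_eq F 𝔤 C hVV
  refine ⟨4 * c1 + 6 * c2, fun x y => ?_⟩
  have hg : 4 * F.g ≤ C.d1 := le_trans (le_max_right _ _) (le_max_left _ _)
  obtain ⟨X1, rX1, cX1, kX1, -⟩ := exists_rep F 𝔤 C x x.2 ∅
  obtain ⟨X2, rX2, cX2, kX2, d2⟩ := exists_rep F 𝔤 C x x.2 X1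
  obtain ⟨Y1, rY1, cY1, kY1, d3⟩ := exists_rep F 𝔤 C y y.2 (X1 ∪ X2)
  obtain ⟨Y2, rY2, cY2, kY2, d4⟩ := exists_rep F 𝔤 C y y.2 (X1 ∪ X2 ∪ Y1)
  obtain ⟨Z1, rZ1, cZ1, kZ1, d5⟩ := exists_rep F 𝔤 C (-(y : J)) (C.G.neg_mem y.2)
    (X1 ∪ X2 ∪ Y1 ∪ Y2)
  obtain ⟨Z2, rZ2, cZ2, kZ2, d6⟩ := exists_rep F 𝔤 C (-(y : J)) (C.G.neg_mem y.2)
    (X1 ∪ X2 ∪ Y1 ∪ Y2 ∪ Z1)
  simp only [Finset.disjoint_union_right] at d3 d4 d5 d6
  obtain ⟨d31, d32⟩ := d3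
  obtain ⟨⟨d41, d42⟩, d43⟩ := d4
  obtain ⟨⟨⟨d51, d52⟩, d53⟩, d54⟩ := d5
  obtain ⟨⟨⟨⟨d61, d62⟩, d63⟩, d64⟩, d65⟩ := d6
  -- the two big terms
  have hA := hc2 (x + y) (X1 ∪ Y1) (X2 ∪ Y2) (C.rat_union _ _ rX1 rY1) (C.rat_union _ _ rX2 rY2)
    (by rw [C.cl_union _ _ d31.symm, kX1, kY1]; rfl)
    (by rw [C.cl_union _ _ d42.symm, kX2, kY2]; rfl)
    (by rw [Finset.card_union_of_disjoint d31.symm, cX1, cY1]; omega)
    (by rw [Finset.card_union_of_disjoint d42.symm, cX2, cY2]; omega)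
    (by
      rw [Finset.disjoint_union_left, Finset.disjoint_union_right, Finset.disjoint_union_right]
      exact ⟨⟨d2.symm, d41.symm⟩, ⟨d32, d43.symm⟩⟩)
  have hB := hc2 (x - y) (X1 ∪ Z1) (X2 ∪ Z2) (C.rat_union _ _ rX1 rZ1) (C.rat_union _ _ rX2 rZ2)
    (by rw [C.cl_union _ _ d51.symm, kX1, kZ1, ← sub_eq_add_neg]; rfl)
    (by rw [C.cl_union _ _ d62.symm, kX2, kZ2, ← sub_eq_add_neg]; rfl)
    (by rw [Finset.card_union_of_disjoint d51.symm, cX1, cZ1]; omega)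
    (by rw [Finset.card_union_of_disjoint d62.symm, cX2, cZ2]; omega)
    (by
      rw [Finset.disjoint_union_left, Finset.disjoint_union_right, Finset.disjoint_union_right]
      exact ⟨⟨d2.symm, d61.symm⟩, ⟨d52, d65.symm⟩⟩)
  rw [L0_union_left F 𝔤 d31.symm, L0_union_right F 𝔤 X1 d42.symm,
    L0_union_right F 𝔤 Y1 d42.symm] at hA
  rw [L0_union_left F 𝔤 d51.symm, L0_union_right F 𝔤 X1 d62.symm,
    L0_union_right F 𝔤 Z1 d62.symm] at hB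
  -- sets of class `0`
  have k0a : C.cl (Y2 ∪ Z2) = 0 := by rw [C.cl_union _ _ d64.symm, kY2, kZ2, add_neg_cancel]
  have k0b : C.cl (Y1 ∪ Z1) = 0 := by rw [C.cl_union _ _ d53.symm, kY1, kZ1, add_neg_cancel]
  have ca : (Y2 ∪ Z2).card = 2 * C.d1 := by
    rw [Finset.card_union_of_disjoint d64.symm, cY2, cZ2]; ring
  have cb : (Y1 ∪ Z1).card = 2 * C.d1 := by
    rw [Finset.card_union_of_disjoint d53.symm, cY1, cZ1]; ring
  have h1 := hc1 X1 (Y2 ∪ Z2) rX1 (C.rat_union _ _ rY2 rZ2) k0a (by omega) ca.le (by omega)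
    (Finset.disjoint_union_right.2 ⟨d41.symm, d61.symm⟩)
  have h2 := hc1 X2 (Y1 ∪ Z1) rX2 (C.rat_union _ _ rY1 rZ1) k0b (by omega) cb.le (by omega)
    (Finset.disjoint_union_right.2 ⟨d32.symm, d52.symm⟩)
  have h3 := hc1 Z2 (Y1 ∪ Z1) rZ2 (C.rat_union _ _ rY1 rZ1) k0b (by omega) cb.le (by omega)
    (Finset.disjoint_union_right.2 ⟨d63, d65⟩)
  have h4 := hc1 Y1 (Y2 ∪ Z2) rY1 (C.rat_union _ _ rY2 rZ2) k0a (by omega) ca.le (by omega)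
    (Finset.disjoint_union_right.2 ⟨d43.symm, d63.symm⟩)
  rw [L0_union_right F 𝔤 _ d64.symm] at h1 h4
  rw [L0_union_right F 𝔤 _ d53.symm] at h2 h3
  rw [L0_comm F 𝔤 X2 Y1, L0_comm F 𝔤 X2 Z1] at h2
  rw [L0_comm F 𝔤 Z2 Y1, L0_comm F 𝔤 Z2 Z1] at h3
  have h5 := hc2 x X1 X2 rX1 rX2 kX1 kX2 (by omega) (by omega) d2.symm
  have h6 := hc2 y Y1 Y2 rY1 rY2 kY1 kY2 (by omega) (by omega) d43.symm
  rw [abs_le] at hA hB h1 h2 h3 h4 h5 h6 ⊢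
  constructor <;>
    linarith [hA.1, hA.2, hB.1, hB.2, h1.1, h1.2, h2.1, h2.2, h3.1, h3.2, h4.1, h4.2, h5.1, h5.2,
      h6.1, h6.2]

end Fermat.Agent.S17
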