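import Fermat.Agent.S17.Glob.Prin
import Fermat.Agent.S17.Glob.Quad
import Fermat.Agent.S17.Glob.North

/-!
# S17 / GLOB leaves `Pos` (G8), `North` (G9) and the final theorem of the block
-/

set_option autoImplicit false

noncomputable section

namespace Fermat.Agent.S17

open scoped Classical

variable {K R : Type*} [Field K] [CommRing R] [Algebra K R] (F : Frame K R) (𝔤 : GlobalField K)
variable {J : Type*} [AddCommGroup J] (C : ClassData F 𝔤.k0 J)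

variable {F 𝔤} in
/-- the set of `C.fiber_finite`. -/
def ClassData.fiber (C : ClassData F 𝔤.k0 J) (Fy : R) : Set J :=
  {y : J | ∃ (D E : Finset (R →ₐ[K] K)) (f φ ψ : R),
    C.cl D = y ∧ Disjoint D E ∧ IsZeros F f (D ∪ E) ∧ φ ≠ 0 ∧ ψ ≠ 0 ∧ (∀ P ∈ D, P φ = 0) ∧
      (∀ P ∈ E, P ψ = 0) ∧ φ * ψ = f * Fy}

/-- Algebraic part of (G8): `f` rational with zero set `D ∪ E`, `deg f = 2 d`, `φ`, `ψ` rational nonzero in `L((d+g)∞)`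
vanishing on `D`, `E`.  Then `φ ψ = f G` (`C.dvd_of_zeros`), `G` rational (`Frame.RatFn.of_mul`), `G ≠ 0`,
`deg G = deg φ + deg ψ - deg f ≤ 2g` (`Frame.deg_mul`); `γ` = top coefficient of `G` (`Frame.exists_top`), `Fy := γ⁻¹ • G`,
and `(γ⁻¹ • φ) ψ = f Fy`. -/
theorem exists_Fy (hF : F.IsRat 𝔤.k0) (d : ℕ) (f φ ψ : R) (D E : Finset (R →ₐ[K] K))
    (hf : F.RatFn 𝔤.k0 f) (hZ : IsZeros F f (D ∪ E)) (hdeg : F.deg f = 2 * d) (hf0 : f ≠ 0)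
    (hDE : Disjoint D E)
    (hφ : F.RatFn 𝔤.k0 φ) (hφ0 : φ ≠ 0) (hφd : φ ∈ F.le (d + F.g)) (hφD : ∀ P ∈ D, P φ = 0)
    (hψ : F.RatFn 𝔤.k0 ψ) (hψ0 : ψ ≠ 0) (hψd : ψ ∈ F.le (d + F.g)) (hψE : ∀ P ∈ E, P ψ = 0) :
    ∃ (Fy : R) (γ : K), γ ≠ 0 ∧ γ ∈ 𝔤.k0 ∧ F.RatFn 𝔤.k0 Fy ∧ Fy ∈ F.le (2 * F.g) ∧
      (∃ i, F.e.repr Fy i = 1) ∧ φ * ψ = f * (γ • Fy) ∧ C.cl D ∈ C.fiber Fy := by
  haveI : IsDomain R := F.isDomain
  obtain ⟨G, hG⟩ : f ∣ φ * ψ := by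
    refine C.dvd_of_zeros f (D ∪ E) hZ (φ * ψ) fun P hP => ?_
    rw [_root_.map_mul]
    rcases Finset.mem_union.1 hP with h | h
    · rw [hφD P h, zero_mul]
    · rw [hψE P h, mul_zero]
  have hφψ0 : φ * ψ ≠ 0 := mul_ne_zero hφ0 hψ0
  have hG0 : G ≠ 0 := by
    rintro rfl
    rw [mul_zero] at hG
    exact hφψ0 hG
  have hGr : F.RatFn 𝔤.k0 G := Frame.RatFn.of_mul hF hf hf0 (hG ▸ Frame.RatFn.mul hF hφ hψ)
  have hGd : F.deg G ≤ 2 * F.g := by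
    have e1 := F.deg_mul hφ0 hψ0
    have e2 := F.deg_mul hf0 hG0
    rw [← hG] at e2
    have e3 := F.mem_le_iff_deg.1 hφd
    have e4 := F.mem_le_iff_deg.1 hψd
    omega
  obtain ⟨i, -, hi0, -⟩ := F.exists_top hG0
  have hγk : F.e.repr G i ∈ 𝔤.k0 := hGr i
  have hγk' : (F.e.repr G i)⁻¹ ∈ 𝔤.k0 := 𝔤.k0.inv_mem hγk
  have hsm : F.e.repr G i • ((F.e.repr G i)⁻¹ • G) = G := by
    rw [smul_smul, mul_inv_cancel₀ hi0, one_smul]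
  refine ⟨(F.e.repr G i)⁻¹ • G, F.e.repr G i, hi0, hγk, hGr.smul hγk', ?_, ⟨i, ?_⟩, ?_, ?_⟩
  · exact (F.le _).smul_mem _ (F.mem_le_iff_deg.2 hGd)
  · rw [_root_.map_smul, Finsupp.smul_apply, smul_eq_mul, inv_mul_cancel₀ hi0]
  · rw [hsm, hG]
  · refine ⟨D, E, f, (F.e.repr G i)⁻¹ • φ, ψ, rfl, hDE, hZ, smul_ne_zero (inv_ne_zero hi0) hφ0, hψ0,
      fun P hP => ?_, hψE, ?_⟩
    · rw [_root_.map_smul, hφD P hP, smul_zero]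
    · rw [smul_mul_assoc, hG, mul_smul_comm]

/-- **(G8).**  For `y` good: `q(y) ≥ h(Fy) - c`.   `D ∈ y`, `E ∈ -y` disjoint rational of size `d1` (`exists_rep`);
`D ∪ E = Z(f)` (`C.principal`); `φ`, `ψ` from `bet_le d1` (`C.good_wdg`, `C.good_neg`, `C.rat_ratSet`); `exists_Fy`.
`L0 D E = β(D ∪ E) - β(D) - β(E) - d1 (S D + S E)` (`bet_union`)
`≥ (2 d1 + g - 1)(S D + S E) - (d1 + g)(S D + S E) + h(φ) + h(ψ) - d1 (S D + S E) - c` (`bet_ge` with `M = 2 d1`)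
`= h(φ) + h(ψ) - S(D ∪ E) - c ≥ h(φ ψ) - h(f) - c'` (`hC_mul`, `lf`) `= h(f (γ Fy)) - h(f) - c' ≥ h(γ Fy) - c'' = h(Fy) - c''`
(`hC_mul`, `hC_smul`); `qq_eq_neg`. -/
theorem qq_ge_good (hVV : StmtVV F) (hF : F.IsRat 𝔤.k0) :
    ∃ c : ℝ, 0 ≤ c ∧ ∀ y : C.G, C.Good (y : J) →
      ∃ Fy : R, F.RatFn 𝔤.k0 Fy ∧ Fy ∈ F.le (2 * F.g) ∧ (∃ i, F.e.repr Fy i = 1) ∧
        (y : J) ∈ C.fiber Fy ∧ hC F 𝔤 Fy ≤ qq F 𝔤 C y + c := by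
  have h4g : 4 * F.g ≤ C.d1 := le_trans (le_max_right _ _) (le_max_left _ _)
  have h1 : 1 ≤ C.d1 := le_max_right _ _
  obtain ⟨c1, hc1, H1⟩ := bet_ge F 𝔤 C hVV hF (2 * C.d1)
  obtain ⟨c2, hc2, H2⟩ := bet_le F 𝔤 hVV hF C.d1 (by omega)
  obtain ⟨c3, hc3, H3⟩ := lf F 𝔤 C hVV (2 * C.d1)
  obtain ⟨c4, hc4, H4⟩ := hC_mul F 𝔤 (2 * C.d1 + 2 * F.g)
  obtain ⟨c5, hc5, H5⟩ := qq_eq_neg F 𝔤 C hVV
  refine ⟨c1 + 2 * c2 + c3 + 2 * c4 + c5, by positivity, fun y hy => ?_⟩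
  obtain ⟨D, hDr, hDc, hDcl, -⟩ := exists_rep F 𝔤 C y y.2 ∅
  obtain ⟨E, hEr, hEc, hEcl, hED⟩ := exists_rep F 𝔤 C (-(y : J)) (neg_mem y.2) D
  have hDE : Disjoint D E := hED.symm
  have hU : C.Rat (D ∪ E) := C.rat_union D E hDr hEr
  have hcl : C.cl (D ∪ E) = 0 := by rw [C.cl_union D E hDE, hDcl, hEcl, add_neg_cancel]
  obtain ⟨f, hfr, hZ⟩ := C.principal (D ∪ E) hU hcl
  have hcardU : (D ∪ E).card = 2 * C.d1 := by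
    rw [Finset.card_union_of_disjoint hDE, hDc, hEc]; ring
  have hdeg : F.deg f = 2 * C.d1 := by rw [← hZ.2, hcardU]
  have hf0 : f ≠ 0 := IsZeros.ne_zero F hZ (by omega)
  obtain ⟨φ, hφr, hφ0, hφd, hφD, hφ⟩ := H2 D hDc (C.rat_ratSet D hDr)
    (C.good_wdg y D hy hDcl (by omega))
  obtain ⟨ψ, hψr, hψ0, hψd, hψE, hψ⟩ := H2 E hEc (C.rat_ratSet E hEr)
    (C.good_wdg (-(y : J)) E (C.good_neg y hy) hEcl (by omega))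
  obtain ⟨Fy, γ, hγ0, hγk, hFyr, hFyd, hFy1, hmul, hfib⟩ :=
    exists_Fy F 𝔤 C hF C.d1 f φ ψ D E hfr hZ hdeg hf0 hDE hφr hφ0 hφd hφD hψr hψ0 hψd hψE
  refine ⟨Fy, hFyr, hFyd, hFy1, hDcl ▸ hfib, ?_⟩
  have hFy0 : Fy ≠ 0 := by
    rintro rfl
    obtain ⟨i, hi⟩ := hFy1
    simp at hi
  have hγFy0 : γ • Fy ≠ 0 := smul_ne_zero hγ0 hFy0
  -- the inequalities
  have e1 := H1 f (D ∪ E) hfr hZ hU (by omega) (by omega) (by omega)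
  rw [bet_union F 𝔤 hDE, SS_union F 𝔤 hDE, hcardU] at e1
  have e3 := abs_le.mp (H3 f (D ∪ E) hfr hZ hU (by omega) (by omega))
  rw [SS_union F 𝔤 hDE] at e3
  have e4 := abs_le.mp (H4 φ ψ hφ0 hψ0 (F.le_mono (by omega) hφd) (F.le_mono (by omega) hψd))
  have e4' := abs_le.mp (H4 f (γ • Fy) hf0 hγFy0
    (F.mem_le_iff_deg.mpr (by omega)) (F.le_mono (by omega) ((F.le _).smul_mem γ hFyd)))
  rw [← hmul, hC_smul F 𝔤 hγ0 (pow_mem hγk 2) hFy0] at e4'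
  have e5 := abs_le.mp (H5 y D E hDr hEr hDcl hEcl hDc hEc hDE)
  have eL : L0 F 𝔤 D E = Lam F 𝔤 D E - C.d1 * SS F 𝔤 E - C.d1 * SS F 𝔤 D := by
    unfold L0
    rw [hDc, hEc]
  push_cast at e1
  rw [eL] at e5
  nlinarith [e1, e3.1, e3.2, e4.1, e4.2, e4'.1, e4'.2, e5.1, e5.2, hφ, hψ]

/-- `q ≥ -c` on the good classes (`qq_ge_good`, `hC_nonneg`). -/
theorem qq_good_bdd (hVV : StmtVV F) (hF : F.IsRat 𝔤.k0) :
    ∃ c : ℝ, 0 ≤ c ∧ ∀ y : C.G, C.Good (y : J) → -c ≤ qq F 𝔤 C y := by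
  obtain ⟨c, hc0, hc⟩ := qq_ge_good F 𝔤 C hVV hF
  refine ⟨c, hc0, fun y hy => ?_⟩
  obtain ⟨Fy, -, -, h1, -, h2⟩ := hc y hy
  have := hC_nonneg F 𝔤 h1
  linarith

/-- Northcott on the good classes: `Frame.northcott_cnrm` (Glob/Sum.lean; `hC` unfolds to the `finsum` there) gives
finitely many `Fy`; `C.fiber_finite` (`Fy ≠ 0` since it has a coefficient `1`) finitely many `y` for each. -/
theorem finite_good (hVV : StmtVV F) (hF : F.IsRat 𝔤.k0) (B : ℝ) :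
    {y : C.G | C.Good (y : J) ∧ qq F 𝔤 C y ≤ B}.Finite := by
  obtain ⟨c, -, hc⟩ := qq_ge_good F 𝔤 C hVV hF
  have h1 := F.northcott_cnrm 𝔤 (2 * F.g) (B + c)
  have h2 : (⋃ Fy ∈ {f : R | F.RatFn 𝔤.k0 f ∧ f ∈ F.le (2 * F.g) ∧ (∃ i, F.e.repr f i = 1) ∧
      ∑ᶠ w, Real.log (F.cnrm (𝔤.abv w) f) ≤ B + c}, C.fiber Fy).Finite := by
    refine Set.Finite.biUnion h1 fun Fy hFy => ?_
    obtain ⟨-, -, ⟨i, hi⟩, -⟩ := hFy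
    refine C.fiber_finite Fy ?_
    rintro rfl
    rw [map_zero, Finsupp.zero_apply] at hi
    exact zero_ne_one hi
  refine Set.Finite.of_finite_image (f := fun y : C.G => (y : J)) (h2.subset ?_)
    (Subtype.val_injective.injOn)
  rintro _ ⟨y, ⟨hy, hq⟩, rfl⟩
  obtain ⟨Fy, a1, a2, a3, a4, a5⟩ := hc y hy
  refine Set.mem_biUnion (x := Fy) ⟨a1, a2, a3, ?_⟩ a4
  have : hC F 𝔤 Fy ≤ B + c := by linarith
  exact this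

/-- Abstract translation trick.  `q : G → ℝ` with the parallelogram law up to `c`; `Good` a predicate with `q ≥ -c₁` on
`Good`, Northcott on `Good`; `𝒯` finite with: for all `y` there is `t ∈ 𝒯` with `Good (y+t)`, `Good (y-t)`.
Then `q + c₂` is a height in the sense of `HeightStmt`.
(`2 q(y) ≥ q(y+t) + q(y-t) - 2 q(t) - c`;  `q(y) ≤ B ⟹ q(y+t) ≤ 2B + 2 max_𝒯 q + c + c₁`.) -/
theorem heightStmt_of_translate {G : Type*} [AddCommGroup G] (q : G → ℝ) (Good : G → Prop)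
    (hpar : ∃ c : ℝ, ∀ x y, |q (x + y) + q (x - y) - 2 * (q x + q y)| ≤ c)
    (hbdd : ∃ c : ℝ, ∀ y, Good y → -c ≤ q y)
    (hfin : ∀ B : ℝ, {y | Good y ∧ q y ≤ B}.Finite)
    (htr : ∃ 𝒯 : Finset G, ∀ y, ∃ t ∈ 𝒯, Good (y + t) ∧ Good (y - t)) :
    HeightStmt G := by
  obtain ⟨c, hc⟩ := hpar
  obtain ⟨C, hC⟩ := hbdd
  obtain ⟨𝒯, h𝒯⟩ := htr
  exact heightStmt_of_good q c hc Good 𝒯 h𝒯 C hC hfin

/-- **The output of block GLOB.** -/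
theorem heightStmt (hVV : StmtVV F) (hF : F.IsRat 𝔤.k0) : HeightStmt C.G := by
  refine heightStmt_of_translate (qq F 𝔤 C) (fun y => C.Good (y : J)) (qq_parallelogram F 𝔤 C hVV)
    ?_ (finite_good F 𝔤 C hVV hF) ?_
  · obtain ⟨c, -, hc⟩ := qq_good_bdd F 𝔤 C hVV hF
    exact ⟨c, hc⟩
  · obtain ⟨𝒯, h𝒯, h⟩ := C.translate
    refine ⟨𝒯.subtype (· ∈ C.G), fun y => ?_⟩
    obtain ⟨t, ht, h1, h2⟩ := h y y.2
    exact ⟨⟨t, h𝒯 t ht⟩, by simpa using ht, h1, h2⟩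

end Fermat.Agent.S17
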