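import Fermat.Agent.S17.Glob.Dec

/-!
# S17 / GLOB leaves `Prin` (G6) and `Cof` (G7): the two bounds for `β(D) = ∑_{pairs} h_Δ`
-/

set_option autoImplicit false

noncomputable section

namespace Fermat.Agent.S17

open scoped Classical

variable {K R : Type*} [Field K] [CommRing R] [Algebra K R] (F : Frame K R) (𝔤 : GlobalField K)
variable {J : Type*} [AddCommGroup J] (C : ClassData F 𝔤.k0 J)

/-- `wt l ≤ l + g`. -/
theorem Frame.wt_le (l : ℕ) : F.wt l ≤ l + F.g := by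
  rcases le_total F.g l with h | h
  · exact (F.wt_large l h).le
  · have h1 : ∀ k, F.wt l + k ≤ F.wt (l + k) := by
      intro k
      induction k with
      | zero => simp
      | succ k ih =>
        have h0 : F.wt (l + k) < F.wt (l + (k + 1)) :=
          F.wt_strictMono (by omega)
        omega
    have h2 := h1 (F.g - l)
    rw [Nat.add_sub_cancel' h, F.wt_large _ le_rfl] at h2
    omega

/-- Step 1 of (G6): `H_N(Z(f)) = gl (bwdg N r f)`, `r = dim N - n`.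
`compl_minors_frame` (Loc/Minors; `hfr` from `Frame.wt_le`, `Frame.mul_mem_le`; `hW` is a hypothesis here) gives `I, I'` with
`wdg_w N Q * |det bmat I'|_w = |det mat Q I|_w * bwdg_w` for all `w`; take `gl` (`gl_mul`);
`gl |det bmat I'| = 0` (`det_bmat_mem`, `gl_abv_of_mem`), `gl |det mat Q I| = 0` (`RatSet.det_mul_det_mem` with `I' = I`,
`gl_abv_of_sq_mem`). -/
theorem HH_zeros (hF : F.IsRat 𝔤.k0) (N : ℕ) (f : R) (D : Finset (R →ₐ[K] K))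
    (hf : F.RatFn 𝔤.k0 f) (hf0 : f ≠ 0) (hZ : IsZeros F f D) (hD : RatSet F 𝔤.k0 D)
    (hN : 2 * F.g + D.card ≤ N)
    (hW : ∃ I ∈ F.idxFam N D.card, (F.mat (fun a => ⇑(enum D a)) I).det ≠ 0) :
    (∃ I ∈ F.idxFam N (F.dim N - D.card), (bmat F f I).det ≠ 0) ∧
      HH F 𝔤 N D = 𝔤.gl fun w => bwdg F (𝔤.abv w) N (F.dim N - D.card) f := by
  have hdim : F.dim N = N + 1 - F.g := F.dim_eq (by omega)
  have hr : F.dim N = D.card + (F.dim N - D.card) := by omega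
  have hfr : ∀ l, l < F.dim N - D.card → f * F.e l ∈ F.le N := by
    intro l hl
    have h1 : f ∈ F.le D.card := F.mem_le_iff_deg.2 hZ.2.ge
    have h2 : F.e l ∈ F.le (N - D.card) := F.e_mem_le (by have := F.wt_le l; omega)
    have h3 := F.mul_mem_le h1 h2
    rwa [Nat.add_sub_cancel' (by omega)] at h3
  have hQ : ∀ k, enum D k f = 0 := fun k => (hZ.1 _).2 (enum_mem D k)
  obtain ⟨I, hI, I', hI', h1, h2, h3⟩ :=
    compl_minors_frame F N D.card (F.dim N - D.card) hr f hf0 hfr (enum D) hQ hW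
  refine ⟨⟨I', hI', h2⟩, ?_⟩
  have a1 := adm_wdg F 𝔤 N (fun a => ⇑(enum D a)) hW
  have a2 : 𝔤.Adm fun w => 𝔤.abv w (bmat F f I').det := GlobalField.adm_abv h2
  have a3 : 𝔤.Adm fun w => 𝔤.abv w (F.mat (fun a => ⇑(enum D a)) I).det := GlobalField.adm_abv h1
  have a4 := adm_bwdg F 𝔤 N (F.dim N - D.card) f ⟨I', hI', h2⟩
  have e1 := GlobalField.gl_mul a1 a2
  have e2 := GlobalField.gl_mul a3 a4
  have e3 : 𝔤.gl (fun w => 𝔤.abv w (bmat F f I').det) = 0 :=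
    GlobalField.gl_abv_of_mem h2 (det_bmat_mem hF hf I')
  have e4 : 𝔤.gl (fun w => 𝔤.abv w (F.mat (fun a => ⇑(enum D a)) I).det) = 0 :=
    GlobalField.gl_abv_of_sq_mem h1 (by rw [sq]; exact hD.det_mul_det_mem hF I I)
  have e5 : (𝔤.gl fun w => F.wdg (𝔤.abv w) N (fun a => ⇑(enum D a)) * 𝔤.abv w (bmat F f I').det) =
      𝔤.gl fun w => 𝔤.abv w (F.mat (fun a => ⇑(enum D a)) I).det *
        bwdg F (𝔤.abv w) N (F.dim N - D.card) f :=
    GlobalField.gl_congr fun w => h3 (𝔤.abv w)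
  rw [e1, e2, e3, e4, add_zero, zero_add] at e5
  exact e5

/-- **(G6) PRIN.**  `β(Z(f)) ≥ (n + g - 1) S(Z(f)) - c`.   `N := M * n1 + 4 g + M`.  For each `d ≤ M`: `HH_ge d N`:
`N S(D) - β(D) ≤ H_N(D) + c`; `HH_zeros`; `gl_bwdg_le N M r`: `≤ r h(f) + c`; `lf`: `h(f) ≤ S(D) + c`;
`r = dim N - n = N + 1 - g - n` (`Frame.dim_eq`). -/
theorem bet_ge (hVV : StmtVV F) (hF : F.IsRat 𝔤.k0) (M : ℕ) :
    ∃ c : ℝ, 0 ≤ c ∧ ∀ (f : R) (D : Finset (R →ₐ[K] K)), F.RatFn 𝔤.k0 f → IsZeros F f D →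
      C.Rat D → 4 * F.g ≤ F.deg f → 1 ≤ F.deg f → F.deg f ≤ M →
      ((D.card : ℝ) + F.g - 1) * SS F 𝔤 D ≤ bet F 𝔤 D + c := by
  obtain ⟨N, hNdef⟩ : ∃ N : ℕ, N = M * F.n1 + 4 * F.g + M := ⟨_, rfl⟩
  have hexa : ∀ d : ℕ, ∃ c : ℝ, 0 ≤ c ∧ (d ≤ M → ∀ D : Finset (R →ₐ[K] K), D.card = d →
      (∃ I ∈ F.idxFam N D.card, (F.mat (fun a => ⇑(enum D a)) I).det ≠ 0) ∧
        N * SS F 𝔤 D - bet F 𝔤 D ≤ HH F 𝔤 N D + c) := by
    intro d
    by_cases hd : d ≤ M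
    · obtain ⟨c, hc0, hc⟩ := HH_ge F 𝔤 d N (by
        have := Nat.mul_le_mul_right F.n1 hd
        omega)
      exact ⟨c, hc0, fun _ => hc⟩
    · exact ⟨0, le_rfl, fun h => absurd h hd⟩
  choose a ha0 ha using hexa
  choose b hb0 hb using fun d : ℕ => gl_bwdg_le F 𝔤 N M (F.dim N - d)
  obtain ⟨c3, hc3, H3⟩ := lf F 𝔤 C hVV M
  have hale : ∀ d, d ≤ M → a d ≤ ∑ d ∈ Finset.range (M + 1), a d := fun d hd =>
    Finset.single_le_sum (f := a) (fun i _ => ha0 i) (Finset.mem_range.mpr (Nat.lt_succ_of_le hd))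
  have hble : ∀ d, d ≤ M → b d ≤ ∑ d ∈ Finset.range (M + 1), b d := fun d hd =>
    Finset.single_le_sum (f := b) (fun i _ => hb0 i) (Finset.mem_range.mpr (Nat.lt_succ_of_le hd))
  have hsa : 0 ≤ ∑ d ∈ Finset.range (M + 1), a d := Finset.sum_nonneg fun i _ => ha0 i
  have hsb : 0 ≤ ∑ d ∈ Finset.range (M + 1), b d := Finset.sum_nonneg fun i _ => hb0 i
  refine ⟨(∑ d ∈ Finset.range (M + 1), a d) + (∑ d ∈ Finset.range (M + 1), b d) + (N + 1) * c3,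
    by positivity, ?_⟩
  intro f D hf hZ hD h4 h1 hM
  have hcard : D.card = F.deg f := hZ.2
  have hdM : D.card ≤ M := hcard ▸ hM
  have hf0 : f ≠ 0 := IsZeros.ne_zero F hZ h1
  obtain ⟨hW, e1⟩ := ha D.card hdM D rfl
  have hN2 : 2 * F.g + D.card ≤ N := by omega
  obtain ⟨hI', e2⟩ := HH_zeros F 𝔤 hF N f D hf hf0 hZ (C.rat_ratSet D hD) hN2 hW
  have e3 := hb D.card f hf0 (F.mem_le_iff_deg.mpr hM) hI'
  have e4 := (abs_le.mp (H3 f D hf hZ hD h4 hM)).2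
  have hdim : F.dim N = N + 1 - F.g := F.dim_eq (by omega)
  have hr : ((F.dim N - D.card : ℕ) : ℝ) = (N : ℝ) + 1 - F.g - D.card := by
    have h : (F.dim N - D.card) + F.g + D.card = N + 1 := by omega
    have h' : ((F.dim N - D.card : ℕ) : ℝ) + F.g + D.card = N + 1 := by exact_mod_cast h
    linarith
  have hr0 : (0 : ℝ) ≤ ((F.dim N - D.card : ℕ) : ℝ) := Nat.cast_nonneg _
  have hrN : ((F.dim N - D.card : ℕ) : ℝ) ≤ (N : ℝ) + 1 := by
    rw [hr]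
    have : (0 : ℝ) ≤ F.g := Nat.cast_nonneg _
    have : (0 : ℝ) ≤ D.card := Nat.cast_nonneg _
    linarith
  have e5 : ((F.dim N - D.card : ℕ) : ℝ) * hC F 𝔤 f ≤
      ((F.dim N - D.card : ℕ) : ℝ) * SS F 𝔤 D + (N + 1) * c3 := by
    calc ((F.dim N - D.card : ℕ) : ℝ) * hC F 𝔤 f
        ≤ ((F.dim N - D.card : ℕ) : ℝ) * (SS F 𝔤 D + c3) :=
          mul_le_mul_of_nonneg_left (by linarith) hr0
      _ = ((F.dim N - D.card : ℕ) : ℝ) * SS F 𝔤 D + ((F.dim N - D.card : ℕ) : ℝ) * c3 := by ring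
      _ ≤ _ := by
          have := mul_le_mul_of_nonneg_right hrN hc3
          linarith
  have e6 : ((D.card : ℝ) + F.g - 1) * SS F 𝔤 D =
      N * SS F 𝔤 D - ((F.dim N - D.card : ℕ) : ℝ) * SS F 𝔤 D := by
    rw [hr]; ring
  rw [e6]
  have := hale D.card hdM
  have := hble D.card hdM
  linarith

/-- **(G7) COF.**  `D` rational, `#D = d ≥ 3g`, the wedge at level `d + g` is nonzero.  Then there is a RATIONAL `φ ≠ 0`
in `L((d+g)∞)` vanishing on `D` with `β(D) + h(φ) ≤ (d + g) S(D) + c`.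
`cofactor (d+g) d` (`dim (d+g) = d+1`, `Frame.dim_eq`) gives `φ₀` with `cnrm_w φ₀ = wdg_w (d+g) (enum D)` for all `w`, so
`h(φ₀) = H_{d+g}(D)`, `φ₀ ≠ 0`; `HH_le`.  Rational normalisation: `c₀` a nonzero coefficient of `φ₀`; products of two
coefficients are `± det M_I det M_I' ∈ k0` (`RatSet.det_mul_det_mem`); `φ := c₀⁻¹ • φ₀` is rational,
`(c₀⁻¹)² ∈ k0`, `h(φ) = h(φ₀)` (`hC_smul`). -/
theorem bet_le (hVV : StmtVV F) (hF : F.IsRat 𝔤.k0) (d : ℕ) (hd : 3 * F.g ≤ d) :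
    ∃ c : ℝ, 0 ≤ c ∧ ∀ D : Finset (R →ₐ[K] K), D.card = d → RatSet F 𝔤.k0 D →
      (∃ I ∈ F.idxFam (D.card + F.g) D.card, (F.mat (fun a => ⇑(enum D a)) I).det ≠ 0) →
      ∃ φ : R, F.RatFn 𝔤.k0 φ ∧ φ ≠ 0 ∧ φ ∈ F.le (d + F.g) ∧ (∀ P ∈ D, P φ = 0) ∧
        bet F 𝔤 D + hC F 𝔤 φ ≤ ((d : ℝ) + F.g) * SS F 𝔤 D + c := by
  obtain ⟨c, hc0, hc⟩ := HH_le F 𝔤 hVV (d + F.g) d
  refine ⟨c, hc0, ?_⟩
  rintro D rfl hD hW
  have hdim : F.dim (D.card + F.g) = D.card + 1 := by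
    rw [F.dim_eq (by omega)]
    omega
  obtain ⟨φ₀, hmem, hvan, hcn, hco⟩ := cofactor F (D.card + F.g) D.card hdim (enum D)
  -- `φ₀ ≠ 0`
  have hφ0 : φ₀ ≠ 0 := by
    intro h0
    have h1 := hcn AbsoluteValue.trivial
    have h2 := F.wdg_pos AbsoluteValue.trivial (D.card + F.g) (fun a => ⇑(enum D a)) hW
    rw [← h1, h0] at h2
    have h3 : F.cnrm (AbsoluteValue.trivial : AbsoluteValue K ℝ) (0 : R) ≤ 0 := by
      unfold Frame.cnrm
      refine Finset.sup'_le _ _ fun i _ => ?_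
      simp
    exact absurd h2 (not_lt.2 h3)
  -- products of two coefficients are rational
  have hprod : ∀ i j, F.e.repr φ₀ i * F.e.repr φ₀ j ∈ 𝔤.k0 := by
    intro i j
    rcases hco i with h0 | ⟨I, -, hI⟩
    · rw [h0, zero_mul]; exact zero_mem _
    rcases hco j with h0 | ⟨I', -, hI'⟩
    · rw [h0, mul_zero]; exact zero_mem _
    have hm := hD.det_mul_det_mem hF I I'
    rcases hI with hI | hI <;> rcases hI' with hI' | hI' <;> rw [hI, hI']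
    · exact hm
    · rw [mul_neg]; exact neg_mem hm
    · rw [neg_mul]; exact neg_mem hm
    · rw [neg_mul_neg]; exact hm
  obtain ⟨i0, -, hi0⟩ := F.exists_repr_ne_zero hφ0
  set c₀ := F.e.repr φ₀ i0 with hc₀
  have hcc : (c₀ * c₀)⁻¹ ∈ 𝔤.k0 := inv_mem (hprod i0 i0)
  have hh : hC F 𝔤 (c₀⁻¹ • φ₀) = hC F 𝔤 φ₀ :=
    hC_smul F 𝔤 (inv_ne_zero hi0) (by rw [sq, ← mul_inv]; exact hcc) hφ0
  have hH : hC F 𝔤 φ₀ = HH F 𝔤 (D.card + F.g) D := GlobalField.gl_congr fun w => hcn (𝔤.abv w)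
  refine ⟨c₀⁻¹ • φ₀, ?_, smul_ne_zero (inv_ne_zero hi0) hφ0, Submodule.smul_mem _ _ hmem, ?_, ?_⟩
  · intro i
    rw [map_smul, Finsupp.smul_apply, smul_eq_mul]
    have h1 : c₀⁻¹ * F.e.repr φ₀ i = (c₀ * F.e.repr φ₀ i) * (c₀ * c₀)⁻¹ := by
      field_simp
    rw [h1]
    exact mul_mem (hprod i0 i) hcc
  · intro P hP
    obtain ⟨a, rfl⟩ : ∃ a, enum D a = P := ⟨D.equivFin ⟨P, hP⟩, by simp [enum]⟩
    rw [map_smul, hvan a, smul_zero]
  · have h1 := hc D rfl hW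
    rw [hh, hH]
    push_cast at h1
    linarith

end Fermat.Agent.S17
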