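import Fermat.Agent.S17.Glob.Defs
import Fermat.Agent.S17.Loc.FrameBasic

/-!
# S17 / GLOB leaf G1 : from local uniform bounds to global inequalities

`𝔤 : GlobalField K`.  All global quantities are `∑ᶠ w, Real.log (A (𝔤.abv w) x)`.

* finite supports (`Function.HasFiniteSupport`, so that `fun_prop` and Mathlib's `finsum` lemmas
  `finsum_add_distrib`, `finsum_sub_distrib`, `finsum_sum_comm`, `mul_finsum`, `finsum_le_finsum'`
  apply): `hfs_log_abv`, `hfs_log_sup'`, `hfs_log_nrm`, `hfs_log_wdg`, `hfs_log_cnrm`;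
* `UBound.exists_local` / `UBound.exists_global` : `UBound A B` gives
  `log A_w(x) ≤ c_w + log B_w(x)` with `c ≥ 0` finitely supported, hence
  `∑ᶠ log A_w(x) ≤ C + ∑ᶠ log B_w(x)`;
* the product formula for sup norms (`finsum_log_sup'_mul`, `finsum_log_cnrm_smul`), nonnegativity
  (`finsum_log_sup'_nonneg`, `finsum_log_cnrm_nonneg`) and Northcott for functions
  (`northcott_cnrm`).
-/

set_option autoImplicit false

noncomputable section

namespace Fermat.Agent.S17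

open Function

namespace GlobalField

variable {K : Type*} [Field K] (𝔤 : GlobalField K)

/-- The exceptional set of a finite set `S`: the archimedean `w` and those at which some element of
`S` is not a unit. -/
def bad (S : Finset K) : Set 𝔤.ι :=
  {w | ¬ IsNonarchimedean (𝔤.abv w)} ∪ {w | ∃ a ∈ S, 𝔤.abv w a ≠ 1}

theorem bad_finite (S : Finset K) (hS : ∀ a ∈ S, a ≠ 0) : (𝔤.bad S).Finite := by
  refine 𝔤.arch_finite.union ?_
  have : {w | ∃ a ∈ S, 𝔤.abv w a ≠ 1} = ⋃ a ∈ S, {w | 𝔤.abv w a ≠ 1} := by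
    ext w
    simp
  rw [this]
  exact S.finite_toSet.biUnion fun a ha => 𝔤.supp_finite a (hS a ha)

theorem nonarch_of_notMem_bad {S : Finset K} {w : 𝔤.ι} (hw : w ∉ 𝔤.bad S) :
    IsNonarchimedean (𝔤.abv w) := by
  by_contra h
  exact hw (Or.inl h)

theorem abv_eq_one_of_notMem_bad {S : Finset K} {w : 𝔤.ι} (hw : w ∉ 𝔤.bad S) {a : K}
    (ha : a ∈ S) : 𝔤.abv w a = 1 := by
  by_contra h
  exact hw (Or.inr ⟨a, ha, h⟩)

/-- a family which vanishes outside a finite set. -/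
theorem hfs_of_finite {f : 𝔤.ι → ℝ} {Z : Set 𝔤.ι} (hZ : Z.Finite) (h : ∀ w, w ∉ Z → f w = 0) :
    HasFiniteSupport f := by
  refine hZ.subset fun w hw => ?_
  by_contra h'
  exact hw (h w h')

theorem hfs_log_abv {a : K} (ha : a ≠ 0) : HasFiniteSupport fun w => Real.log (𝔤.abv w a) := by
  refine 𝔤.hfs_of_finite (𝔤.supp_finite a ha) fun w hw => ?_
  have : 𝔤.abv w a = 1 := by
    by_contra h
    exact hw h
  rw [this, Real.log_one]

section Sup

variable {κ : Type*} (s : Finset κ) (hs : s.Nonempty) (f : κ → K)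

theorem sup'_abv_pos (v : AbsoluteValue K ℝ) (h : ∃ i ∈ s, f i ≠ 0) :
    0 < s.sup' hs fun i => v (f i) := by
  obtain ⟨i, hi, h0⟩ := h
  exact (v.pos h0).trans_le (Finset.le_sup' (fun i => v (f i)) hi)

theorem sup'_abv_nonneg (v : AbsoluteValue K ℝ) : 0 ≤ s.sup' hs fun i => v (f i) := by
  obtain ⟨i, hi⟩ := hs
  exact (v.nonneg _).trans (Finset.le_sup' (fun i => v (f i)) hi)

/-- the sup norm of a non-zero vector is `1` at almost all `w`. -/
theorem finite_sup'_ne_one (h : ∃ i ∈ s, f i ≠ 0) :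
    {w | (s.sup' hs fun i => 𝔤.abv w (f i)) ≠ 1}.Finite := by
  classical
  refine (𝔤.bad_finite ((s.image f).erase 0) fun a ha => (Finset.mem_erase.1 ha).1).subset ?_
  intro w hw
  by_contra hb
  apply hw
  obtain ⟨i, hi, h0⟩ := h
  apply le_antisymm
  · refine Finset.sup'_le _ _ fun j hj => ?_
    by_cases hj0 : f j = 0
    · rw [hj0, map_zero]
      exact zero_le_one
    · exact (𝔤.abv_eq_one_of_notMem_bad hb
        (Finset.mem_erase.2 ⟨hj0, Finset.mem_image_of_mem f hj⟩)).le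
  · rw [← 𝔤.abv_eq_one_of_notMem_bad hb (Finset.mem_erase.2 ⟨h0, Finset.mem_image_of_mem f hi⟩)]
    exact Finset.le_sup' (fun i => 𝔤.abv w (f i)) hi

theorem hfs_log_sup' (h : ∃ i ∈ s, f i ≠ 0) :
    HasFiniteSupport fun w => Real.log (s.sup' hs fun i => 𝔤.abv w (f i)) := by
  refine 𝔤.hfs_of_finite (𝔤.finite_sup'_ne_one s hs f h) fun w hw => ?_
  have : (s.sup' hs fun i => 𝔤.abv w (f i)) = 1 := by
    by_contra h'
    exact hw h'
  rw [this, Real.log_one]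

theorem sup'_abv_mul (v : AbsoluteValue K ℝ) (c : K) :
    (s.sup' hs fun i => v (c * f i)) = v c * s.sup' hs fun i => v (f i) := by
  rw [Finset.apply_sup'_eq_sup'_comp hs (fun x : ℝ => v c * x)
    (fun x y => mul_max_of_nonneg x y (v.nonneg c))]
  refine Finset.sup'_congr _ rfl fun i _ => ?_
  simp only [Function.comp, map_mul]

/-- **Product formula for sup norms.** -/
theorem finsum_log_sup'_mul (h : ∃ i ∈ s, f i ≠ 0) {c : K} (hc : c ∈ 𝔤.k0) (hc0 : c ≠ 0) :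
    ∑ᶠ w, Real.log (s.sup' hs fun i => 𝔤.abv w (c * f i)) =
      ∑ᶠ w, Real.log (s.sup' hs fun i => 𝔤.abv w (f i)) := by
  have h1 : ∀ w, Real.log (s.sup' hs fun i => 𝔤.abv w (c * f i)) =
      Real.log (𝔤.abv w c) + Real.log (s.sup' hs fun i => 𝔤.abv w (f i)) := by
    intro w
    rw [sup'_abv_mul, Real.log_mul ((𝔤.abv w).ne_zero hc0) (sup'_abv_pos s hs f _ h).ne']
  rw [finsum_congr h1, finsum_add_distrib (𝔤.hfs_log_abv hc0) (𝔤.hfs_log_sup' s hs f h),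
    𝔤.prod_formula c hc hc0, zero_add]

/-- the height of a vector with a non-zero coordinate in `k0` is `≥ 0`. -/
theorem finsum_log_sup'_nonneg (h : ∃ i ∈ s, f i ≠ 0 ∧ f i ∈ 𝔤.k0) :
    0 ≤ ∑ᶠ w, Real.log (s.sup' hs fun i => 𝔤.abv w (f i)) := by
  obtain ⟨i, hi, h0, hk⟩ := h
  rw [← 𝔤.prod_formula (f i) hk h0]
  refine finsum_le_finsum' (𝔤.hfs_log_abv h0) (𝔤.hfs_log_sup' s hs f ⟨i, hi, h0⟩) fun w => ?_
  exact Real.log_le_log ((𝔤.abv w).pos h0) (Finset.le_sup' (fun i => 𝔤.abv w (f i)) hi)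

end Sup

end GlobalField

namespace UBound

variable {K : Type*} [Field K] (𝔤 : GlobalField K) {α : Type*}
  {A B : AbsoluteValue K ℝ → α → ℝ}

/-- **Local form**: finitely supported constants `c_w ≥ 0`. -/
theorem exists_local (h : UBound A B) :
    ∃ c : 𝔤.ι → ℝ, (∀ w, 0 ≤ c w) ∧ HasFiniteSupport c ∧
      ∀ w x, 0 < A (𝔤.abv w) x →
        0 < B (𝔤.abv w) x ∧ Real.log (A (𝔤.abv w) x) ≤ c w + Real.log (B (𝔤.abv w) x) := by
  obtain ⟨S, hS, H⟩ := h
  choose C hC1 hCn hC using H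
  refine ⟨fun w => Real.log (C (𝔤.abv w)), fun w => Real.log_nonneg (hC1 _), ?_, ?_⟩
  · refine 𝔤.hfs_of_finite (𝔤.bad_finite S hS) fun w hw => ?_
    rw [hCn _ (𝔤.nonarch_of_notMem_bad hw) fun a ha => 𝔤.abv_eq_one_of_notMem_bad hw ha,
      Real.log_one]
  · intro w x hA
    have hCpos : 0 < C (𝔤.abv w) := lt_of_lt_of_le one_pos (hC1 _)
    have hB : 0 < B (𝔤.abv w) x := by
      have := hA.trans_le (hC (𝔤.abv w) x)
      exact (mul_pos_iff_of_pos_left hCpos).1 this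
    refine ⟨hB, ?_⟩
    rw [← Real.log_mul hCpos.ne' hB.ne']
    exact Real.log_le_log hA (hC _ x)

/-- **Global form.** -/
theorem exists_global (h : UBound A B) :
    ∃ C : ℝ, 0 ≤ C ∧ ∀ x, (∀ w, 0 < A (𝔤.abv w) x) →
      HasFiniteSupport (fun w => Real.log (A (𝔤.abv w) x)) →
      HasFiniteSupport (fun w => Real.log (B (𝔤.abv w) x)) →
      ∑ᶠ w, Real.log (A (𝔤.abv w) x) ≤ C + ∑ᶠ w, Real.log (B (𝔤.abv w) x) := by
  obtain ⟨c, hc0, hcfin, hc⟩ := h.exists_local 𝔤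
  refine ⟨∑ᶠ w, c w, finsum_nonneg hc0, fun x hA hfA hfB => ?_⟩
  rw [← finsum_add_distrib hcfin hfB]
  exact finsum_le_finsum' hfA (hcfin.add hfB) fun w => (hc w x (hA w)).2

/-- Global form, summed over a finite set of arguments. -/
theorem exists_global_sum (h : UBound A B) :
    ∃ C : ℝ, 0 ≤ C ∧ ∀ D : Finset α, (∀ x ∈ D, ∀ w, 0 < A (𝔤.abv w) x) →
      (∀ x ∈ D, HasFiniteSupport (fun w => Real.log (A (𝔤.abv w) x))) →
      (∀ x ∈ D, HasFiniteSupport (fun w => Real.log (B (𝔤.abv w) x))) →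
      ∑ x ∈ D, ∑ᶠ w, Real.log (A (𝔤.abv w) x) ≤
        D.card * C + ∑ x ∈ D, ∑ᶠ w, Real.log (B (𝔤.abv w) x) := by
  obtain ⟨C, hC0, hC⟩ := h.exists_global 𝔤
  refine ⟨C, hC0, fun D hA hfA hfB => ?_⟩
  have : ∑ x ∈ D, ∑ᶠ w, Real.log (A (𝔤.abv w) x) ≤
      ∑ x ∈ D, (C + ∑ᶠ w, Real.log (B (𝔤.abv w) x)) :=
    Finset.sum_le_sum fun x hx => hC x (hA x hx) (hfA x hx) (hfB x hx)
  rwa [Finset.sum_add_distrib, Finset.sum_const, nsmul_eq_mul] at this

end UBound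

namespace Frame

variable {K R : Type*} [Field K] [CommRing R] [Algebra K R] (F : Frame K R) (𝔤 : GlobalField K)

theorem hfs_log_nrm (n : ℕ) (P : R →ₐ[K] K) :
    HasFiniteSupport fun w => Real.log (F.nrm (𝔤.abv w) n P) :=
  𝔤.hfs_log_sup' (F.idx n) (F.idx_nonempty n) (fun i => P (F.e i))
    ⟨0, F.mem_idx.mpr (by rw [F.wt_zero]; exact Nat.zero_le _), by
      rw [F.e_zero, map_one]; exact one_ne_zero⟩

theorem nrm_pos (v : AbsoluteValue K ℝ) (n : ℕ) (P : R →ₐ[K] K) : 0 < F.nrm v n P :=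
  lt_of_lt_of_le one_pos (F.one_le_nrm v n P)

theorem finsum_log_nrm_nonneg (n : ℕ) (P : R →ₐ[K] K) :
    0 ≤ ∑ᶠ w, Real.log (F.nrm (𝔤.abv w) n P) :=
  finsum_nonneg fun _ => Real.log_nonneg (F.one_le_nrm _ n P)

theorem wdg_pos (v : AbsoluteValue K ℝ) (n : ℕ) {d : ℕ} (P : Fin d → R → K)
    (h : ∃ J ∈ F.idxFam n d, (F.mat P J).det ≠ 0) : 0 < F.wdg v n P :=
  GlobalField.sup'_abv_pos (F.idxFam n d) (F.idxFam_nonempty n d) (fun J => (F.mat P J).det) v h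

theorem exists_det_ne_zero_of_wdg_pos {v : AbsoluteValue K ℝ} {n : ℕ} {d : ℕ} {P : Fin d → R → K}
    (h : 0 < F.wdg v n P) : ∃ J ∈ F.idxFam n d, (F.mat P J).det ≠ 0 := by
  by_contra hne
  push Not at hne
  have : F.wdg v n P ≤ 0 := Finset.sup'_le _ _ fun J hJ => by rw [hne J hJ, map_zero]
  linarith

theorem hfs_log_wdg (n : ℕ) {d : ℕ} (P : Fin d → R → K)
    (h : ∃ J ∈ F.idxFam n d, (F.mat P J).det ≠ 0) :
    HasFiniteSupport fun w => Real.log (F.wdg (𝔤.abv w) n P) :=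
  𝔤.hfs_log_sup' (F.idxFam n d) (F.idxFam_nonempty n d) (fun J => (F.mat P J).det) h

theorem exists_repr_ne_zero {f : R} (hf : f ≠ 0) : ∃ i ∈ F.idx (F.deg f), F.e.repr f i ≠ 0 := by
  obtain ⟨i, hi, h0, -⟩ := F.exists_top hf
  exact ⟨i, F.mem_idx.mpr hi.le, h0⟩

theorem hfs_log_cnrm {f : R} (hf : f ≠ 0) :
    HasFiniteSupport fun w => Real.log (F.cnrm (𝔤.abv w) f) :=
  𝔤.hfs_log_sup' (F.idx (F.deg f)) (F.idx_nonempty _) (fun i => F.e.repr f i)
    (F.exists_repr_ne_zero hf)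

/-- `h(c f) = h(f)` for `c ∈ k0ˣ`. -/
theorem finsum_log_cnrm_smul {f : R} (hf : f ≠ 0) {c : K} (hc : c ∈ 𝔤.k0) (hc0 : c ≠ 0) :
    ∑ᶠ w, Real.log (F.cnrm (𝔤.abv w) (c • f)) = ∑ᶠ w, Real.log (F.cnrm (𝔤.abv w) f) := by
  have h1 : ∀ w, Real.log (F.cnrm (𝔤.abv w) (c • f)) =
      Real.log (𝔤.abv w c) + Real.log (F.cnrm (𝔤.abv w) f) := by
    intro w
    rw [F.cnrm_smul, Real.log_mul ((𝔤.abv w).ne_zero hc0) (F.cnrm_pos _ hf).ne']
  rw [finsum_congr h1, finsum_add_distrib (𝔤.hfs_log_abv hc0) (F.hfs_log_cnrm 𝔤 hf),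
    𝔤.prod_formula c hc hc0, zero_add]

/-- `h(f) ≥ 0` if `f` has a non-zero coefficient in `k0`. -/
theorem finsum_log_cnrm_nonneg {f : R} (h : ∃ i, F.e.repr f i ≠ 0 ∧ F.e.repr f i ∈ 𝔤.k0) :
    0 ≤ ∑ᶠ w, Real.log (F.cnrm (𝔤.abv w) f) := by
  obtain ⟨i, h0, hk⟩ := h
  refine 𝔤.finsum_log_sup'_nonneg (F.idx (F.deg f)) (F.idx_nonempty _) (fun i => F.e.repr f i)
    ⟨i, ?_, h0, hk⟩
  rw [F.mem_idx]
  exact Finset.le_sup (f := F.wt) (Finsupp.mem_support_iff.2 h0)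

/-- **Northcott for functions**: finitely many `k0`-rational `f ∈ L(n ∞)` with one coefficient equal
to `1` and `h(f) ≤ B`. -/
theorem northcott_cnrm (n : ℕ) (B : ℝ) :
    {f : R | F.RatFn 𝔤.k0 f ∧ f ∈ F.le n ∧ (∃ i, F.e.repr f i = 1) ∧
      ∑ᶠ w, Real.log (F.cnrm (𝔤.abv w) f) ≤ B}.Finite := by
  obtain ⟨m, hm⟩ : ∃ m, F.dim n = m + 1 := ⟨F.dim n - 1, by have := F.dim_pos n; omega⟩
  refine Set.Finite.of_finite_image (f := fun f : R => fun i : Fin (m + 1) => F.e.repr f i)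
    ((𝔤.northcott m B).subset ?_) ?_
  · rintro _ ⟨f, ⟨hrat, hfn, ⟨i, hi⟩, hB⟩, rfl⟩
    have hvan : ∀ j, m + 1 ≤ j → F.e.repr f j = 0 := by
      intro j hj
      apply F.mem_le_iff.1 hfn
      by_contra h
      have := F.lt_dim_iff.2 (not_lt.1 h)
      omega
    refine ⟨fun j => hrat j, ⟨⟨i, ?_⟩, hi⟩, ?_⟩
    · by_contra h
      rw [hvan i (not_lt.1 h)] at hi
      exact zero_ne_one hi
    · refine le_of_eq_of_le (finsum_congr fun w => ?_) hB
      congr 1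
      rw [F.cnrm_eq _ hfn]
      apply le_antisymm
      · refine Finset.sup'_le _ _ fun j _ => ?_
        exact Finset.le_sup' (fun i => 𝔤.abv w (F.e.repr f i))
          (Finset.mem_range.2 (by rw [hm]; exact j.2))
      · refine Finset.sup'_le _ _ fun j hj => ?_
        have hj' : j < m + 1 := by rw [← hm]; exact Finset.mem_range.1 hj
        exact Finset.le_sup' (fun i : Fin (m + 1) => 𝔤.abv w (F.e.repr f i))
          (Finset.mem_univ (⟨j, hj'⟩ : Fin (m + 1)))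
  · rintro f ⟨-, hfn, -, -⟩ f' ⟨-, hfn', -, -⟩ h
    apply F.e.repr.injective
    ext j
    by_cases hj : j < m + 1
    · exact congrFun h ⟨j, hj⟩
    · have hw : n < F.wt j := by
        by_contra h'
        have := F.lt_dim_iff.2 (not_lt.1 h')
        omega
      rw [F.mem_le_iff.1 hfn j hw, F.mem_le_iff.1 hfn' j hw]

end Frame

end Fermat.Agent.S17
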